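import Mathlib

/-!
# Basic facts on the `p`-th cyclotomic ring used for Fermat's Last Theorem (regular prime style)
-/

set_option autoImplicit false
set_option linter.unusedSectionVars false

open NumberField IsPrimitiveRoot

namespace Fermat.Agent.Lib.FltRegular

/-- Kummer's lemma for the field `K` (to be applied to the `p`-th cyclotomic field): a unit
congruent to a rational integer modulo `p` is a `p`-th power. -/
def KummerLemma (p : ℕ) (K : Type*) [Field K] [NumberField K] : Prop :=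
  ∀ u : (𝓞 K)ˣ, (∃ n : ℤ, (p : 𝓞 K) ∣ (u : 𝓞 K) - n) → ∃ v : (𝓞 K)ˣ, u = v ^ p

variable {p : ℕ} [hp : Fact p.Prime] {K : Type*} [Field K] [NumberField K]
  [hK : IsCyclotomicExtension {p} ℚ K] {ζ : K} (hζ : IsPrimitiveRoot ζ p)

include hζ

lemma zeta_pow_p : hζ.toInteger ^ p = 1 := hζ.toInteger_isPrimitiveRoot.pow_eq_one

lemma zeta_isUnit : IsUnit hζ.toInteger :=
  hζ.toInteger_isPrimitiveRoot.isUnit hp.out.ne_zero

/-- Every element of `𝓞 K` is congruent to an integer modulo `ζ - 1`. -/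
lemma exists_int_sub_dvd (x : 𝓞 K) : ∃ n : ℤ, hζ.toInteger - 1 ∣ x - n := by
  have htop : Algebra.adjoin ℤ {hζ.toInteger} = ⊤ := IsCyclotomicExtension.Rat.adjoin_singleton_eq_top hζ
  have hx : x ∈ Algebra.adjoin ℤ {hζ.toInteger} := htop ▸ Algebra.mem_top
  induction hx using Algebra.adjoin_induction with
  | mem y hy =>
    rw [Set.mem_singleton_iff] at hy
    exact ⟨1, by rw [hy]; simp⟩
  | algebraMap r => exact ⟨r, by simp⟩
  | add y z _ _ hy hz =>
    obtain ⟨a, ha⟩ := hy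
    obtain ⟨b, hb⟩ := hz
    exact ⟨a + b, by
      have : y + z - ((a + b : ℤ) : 𝓞 K) = (y - a) + (z - b) := by push_cast; ring
      rw [this]; exact dvd_add ha hb⟩
  | mul y z _ _ hy hz =>
    obtain ⟨a, ha⟩ := hy
    obtain ⟨b, hb⟩ := hz
    exact ⟨a * b, by
      have : y * z - ((a * b : ℤ) : 𝓞 K) = (y - a) * z + a * (z - b) := by push_cast; ring
      rw [this]; exact dvd_add (dvd_mul_of_dvd_left ha _) (dvd_mul_of_dvd_right hb _)⟩

omit hζ in
/-- `(x + y)^p ≡ x^p + y^p` modulo `p`. -/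
lemma dvd_add_pow_sub {R : Type*} [CommRing R] (x y : R) :
    (p : R) ∣ (x + y) ^ p - (x ^ p + y ^ p) := by
  obtain ⟨r, hr⟩ := exists_add_pow_prime_eq hp.out x y
  exact ⟨x * y * r, by rw [hr]; ring⟩

/-- The `p`-th power of every element of `𝓞 K` is congruent to an integer modulo `p`. -/
lemma exists_int_pow_sub_dvd (x : 𝓞 K) : ∃ n : ℤ, (p : 𝓞 K) ∣ x ^ p - n := by
  have htop : Algebra.adjoin ℤ {hζ.toInteger} = ⊤ := IsCyclotomicExtension.Rat.adjoin_singleton_eq_top hζ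
  have hx : x ∈ Algebra.adjoin ℤ {hζ.toInteger} := htop ▸ Algebra.mem_top
  induction hx using Algebra.adjoin_induction with
  | mem y hy =>
    rw [Set.mem_singleton_iff] at hy
    exact ⟨1, by rw [hy, zeta_pow_p hζ]; simp⟩
  | algebraMap r => exact ⟨r ^ p, by simp⟩
  | add y z _ _ hy hz =>
    obtain ⟨a, ha⟩ := hy
    obtain ⟨b, hb⟩ := hz
    refine ⟨a + b, ?_⟩
    have : (y + z) ^ p - ((a + b : ℤ) : 𝓞 K) =
        ((y + z) ^ p - (y ^ p + z ^ p)) + ((y ^ p - a) + (z ^ p - b)) := by push_cast; ring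
    rw [this]
    exact dvd_add (dvd_add_pow_sub y z) (dvd_add ha hb)
  | mul y z _ _ hy hz =>
    obtain ⟨a, ha⟩ := hy
    obtain ⟨b, hb⟩ := hz
    refine ⟨a * b, ?_⟩
    have : (y * z) ^ p - ((a * b : ℤ) : 𝓞 K) = (y ^ p - a) * z ^ p + a * (z ^ p - b) := by
      push_cast; ring
    rw [this]
    exact dvd_add (dvd_mul_of_dvd_left ha _) (dvd_mul_of_dvd_right hb _)



lemma exists_repr (y : 𝓞 K) :
    ∃ b : ℕ → ℤ, y = ∑ j ∈ Finset.range (p - 1), (b j : 𝓞 K) * hζ.toInteger ^ j := by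
  set pb := hζ.integralPowerBasis with hpb
  have hdim : pb.dim = p - 1 := by rw [hζ.integralPowerBasis_dim, Nat.totient_prime hp.out]
  have hgen : pb.gen = hζ.toInteger := hζ.integralPowerBasis_gen
  refine ⟨fun j => if hj : j < pb.dim then pb.basis.repr y ⟨j, hj⟩ else 0, ?_⟩
  conv_lhs => rw [← pb.basis.sum_repr y]
  rw [← hdim, ← Fin.sum_univ_eq_sum_range (fun j => ((if hj : j < pb.dim then pb.basis.repr y ⟨j, hj⟩ else 0 : ℤ) : 𝓞 K) * hζ.toInteger ^ j)]
  refine Finset.sum_congr rfl fun i _ => ?_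
  rw [dif_pos i.2, pb.basis_eq_pow, hgen, zsmul_eq_mul]

lemma eq_zero_of_sum_eq_zero (g : ℕ → ℤ)
    (h : ∑ i ∈ Finset.range (p - 1), (g i : 𝓞 K) * hζ.toInteger ^ i = 0) :
    ∀ i < p - 1, g i = 0 := by
  set pb := hζ.integralPowerBasis with hpb
  have hdim : pb.dim = p - 1 := by rw [hζ.integralPowerBasis_dim, Nat.totient_prime hp.out]
  have hgen : pb.gen = hζ.toInteger := hζ.integralPowerBasis_gen
  intro i hi
  have hli := Fintype.linearIndependent_iff.mp pb.basis.linearIndependent (fun j => g j) ?_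
    ⟨i, hdim ▸ hi⟩
  · exact hli
  · rw [← hdim, ← Fin.sum_univ_eq_sum_range (fun j => (g j : 𝓞 K) * hζ.toInteger ^ j)] at h
    rw [← h]
    refine Finset.sum_congr rfl fun j _ => ?_
    rw [pb.basis_eq_pow, hgen, zsmul_eq_mul]




lemma sum_zeta_pow_eq_zero : ∑ i ∈ Finset.range p, hζ.toInteger ^ i = 0 :=
  hζ.toInteger_isPrimitiveRoot.geom_sum_eq_zero hp.out.one_lt

lemma exists_const_of_dvd_sum (f : ℕ → ℤ)
    (h : (p : 𝓞 K) ∣ ∑ i ∈ Finset.range p, (f i : 𝓞 K) * hζ.toInteger ^ i) :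
    ∃ c : ℤ, ∀ i < p, (p : ℤ) ∣ f i - c := by
  obtain ⟨y, hy⟩ := h
  obtain ⟨b, hb⟩ := exists_repr hζ y
  have hp1 : p - 1 + 1 = p := Nat.sub_add_cancel hp.out.one_le
  have hr : Finset.range p = Finset.range (p - 1 + 1) := by rw [hp1]
  have hlast : hζ.toInteger ^ (p - 1) = - ∑ i ∈ Finset.range (p - 1), hζ.toInteger ^ i := by
    have := sum_zeta_pow_eq_zero hζ
    rw [hr, Finset.sum_range_succ] at this
    exact eq_neg_of_add_eq_zero_right this
  refine ⟨f (p - 1), fun i hi => ?_⟩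
  have key := eq_zero_of_sum_eq_zero hζ (fun i => f i - p * b i - f (p - 1)) ?_
  · rcases Nat.lt_or_ge i (p - 1) with h1 | h1
    · have := key i h1
      exact ⟨b i, by linarith⟩
    · have : i = p - 1 := by omega
      rw [this, sub_self]; exact dvd_zero _
  · have h1 : ∑ i ∈ Finset.range p, (f i : 𝓞 K) * hζ.toInteger ^ i =
        ∑ i ∈ Finset.range (p - 1), ((f i : 𝓞 K) - f (p - 1)) * hζ.toInteger ^ i := by
      conv_lhs => rw [hr, Finset.sum_range_succ, hlast]
      rw [mul_neg, Finset.mul_sum, ← sub_eq_add_neg, ← Finset.sum_sub_distrib]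
      refine Finset.sum_congr rfl fun j _ => by ring
    rw [h1, hb, Finset.mul_sum] at hy
    rw [← sub_eq_zero, ← Finset.sum_sub_distrib] at hy
    rw [← hy]
    refine Finset.sum_congr rfl fun j _ => by push_cast; ring




lemma pi_prime : Prime (hζ.toInteger - 1) := hζ.zeta_sub_one_prime'

lemma pi_dvd_intCast_iff {n : ℤ} : hζ.toInteger - 1 ∣ (n : 𝓞 K) ↔ (p : ℤ) ∣ n :=
  IsCyclotomicExtension.Rat.zeta_sub_one_dvd_intCast_iff' p hζ

lemma associated_zeta_pow_sub_one {i : ℕ} (hi : ¬ p ∣ i) :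
    Associated (hζ.toInteger - 1) (hζ.toInteger ^ i - 1) :=
  hζ.toInteger_isPrimitiveRoot.associated_sub_one_pow_sub_one_of_coprime
    (hp.out.coprime_iff_not_dvd.mpr hi).symm

lemma pi_dvd_zeta_pow_sub_one (i : ℕ) : hζ.toInteger - 1 ∣ hζ.toInteger ^ i - 1 := by
  simpa using sub_dvd_pow_sub_pow hζ.toInteger 1 i

lemma associated_zeta_pow_sub_zeta_pow {i j : ℕ} (hij : ¬ (i ≡ j [MOD p])) :
    Associated (hζ.toInteger - 1) (hζ.toInteger ^ i - hζ.toInteger ^ j) := by
  wlog h : j ≤ i generalizing i j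
  · have := this (i := j) (j := i) (fun h' => hij h'.symm) (by omega)
    refine this.trans ?_
    rw [← neg_sub (hζ.toInteger ^ j) (hζ.toInteger ^ i)]
    exact (Associated.refl (hζ.toInteger ^ j - hζ.toInteger ^ i)).neg_right
  obtain ⟨k, rfl⟩ := Nat.exists_eq_add_of_le h
  have hk : ¬ p ∣ k := by
    intro hk
    apply hij
    have : k ≡ 0 [MOD p] := (Nat.modEq_zero_iff_dvd).mpr hk
    simpa using Nat.ModEq.add_left j this
  have h1 : hζ.toInteger ^ (j + k) - hζ.toInteger ^ j =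
      hζ.toInteger ^ j * (hζ.toInteger ^ k - 1) := by ring
  rw [h1]
  refine (associated_zeta_pow_sub_one hζ hk).trans ?_
  exact (associated_isUnit_mul_left_iff ((zeta_isUnit hζ).pow j)).mpr (Associated.refl _) |>.symm

lemma one_add_zeta_isUnit (hp2 : p ≠ 2) : IsUnit (1 + hζ.toInteger) := by
  have h2 : ¬ p ∣ 2 := by
    intro h
    exact hp2 ((Nat.prime_dvd_prime_iff_eq hp.out Nat.prime_two).mp h)
  have h := associated_zeta_pow_sub_one hζ h2
  have h1 : hζ.toInteger ^ 2 - 1 = (hζ.toInteger - 1) * (1 + hζ.toInteger) := by ring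
  rw [h1] at h
  exact isUnit_of_associated_mul h.symm (pi_prime hζ).ne_zero




/-- Complex conjugation on `𝓞 K` together with the unit lemma: every unit is a power of `ζ`
times its conjugate. -/
lemma exists_conj (hp2 : 2 < p) :
    ∃ σ : 𝓞 K ≃+* 𝓞 K, σ hζ.toInteger * hζ.toInteger = 1 ∧
      ∀ u : (𝓞 K)ˣ, ∃ k : ℕ, (u : 𝓞 K) = hζ.toInteger ^ k * σ u := by
  have : IsCMField K := IsCyclotomicExtension.Rat.isCMField K (S := {p}) ⟨p, rfl, hp2⟩
  have hodd : Odd p := hp.out.odd_of_ne_two (by omega)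
  set σ : 𝓞 K ≃+* 𝓞 K := (IsCMField.ringOfIntegersComplexConj K).toRingEquiv with hσ
  have hσcoe : ∀ x : 𝓞 K, ((σ x : 𝓞 K) : K) = IsCMField.complexConj K x := fun x => rfl
  have hσζ : σ hζ.toInteger * hζ.toInteger = 1 := by
    apply RingOfIntegers.ext
    show (algebraMap (𝓞 K) K) (σ hζ.toInteger * hζ.toInteger) = (algebraMap (𝓞 K) K) 1
    rw [map_mul, map_one]
    show IsCMField.complexConj K ζ * ζ = 1
    let φ : K →+* ℂ := Classical.choice (inferInstance : Nonempty _)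
    apply φ.injective
    rw [map_mul, IsCMField.complexEmbedding_complexConj, map_one]
    have h1 : ‖φ ζ‖ = 1 := (hζ.map_of_injective φ.injective).norm'_eq_one hp.out.ne_zero
    rw [← Complex.inv_eq_conj h1]
    exact inv_mul_cancel₀ (by
      intro h0
      rw [h0, norm_zero] at h1
      exact zero_ne_one h1)
  refine ⟨σ, hσζ, fun u => ?_⟩
  -- `π ∣ σ π`
  have hπσ : hζ.toInteger - 1 ∣ σ (hζ.toInteger - 1) := by
    have h1 : σ (hζ.toInteger - 1) * hζ.toInteger = -(hζ.toInteger - 1) := by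
      rw [map_sub, map_one, sub_mul, hσζ]; ring
    have h2 : hζ.toInteger - 1 ∣ σ (hζ.toInteger - 1) * hζ.toInteger := by
      rw [h1]; exact (dvd_refl _).neg_right
    exact (IsUnit.dvd_mul_right (zeta_isUnit hζ)).mp h2
  set t := IsCMField.unitsMulComplexConjInv K u with ht
  have htfin : IsOfFinOrder (((t : (𝓞 K)ˣ) : 𝓞 K) : K) := by
    have h1 : IsOfFinOrder (t : (𝓞 K)ˣ) := (CommGroup.mem_torsion _).mp t.2
    have h2 : IsOfFinOrder ((t : (𝓞 K)ˣ) : 𝓞 K) := (Units.coeHom (𝓞 K)).isOfFinOrder h1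
    exact (algebraMap (𝓞 K) K : 𝓞 K →* K).isOfFinOrder h2
  have htval : ((t : (𝓞 K)ˣ) : 𝓞 K) * σ u = u := by
    rw [ht, IsCMField.unitsMulComplexConjInv_apply]
    have : ((IsCMField.unitsComplexConj K u : (𝓞 K)ˣ) : 𝓞 K) = σ u := rfl
    rw [Units.val_mul, ← this, mul_assoc, Units.inv_mul, mul_one]
  obtain ⟨r, hr, hx⟩ := hζ.exists_pow_or_neg_mul_pow_of_isOfFinOrder hodd htfin
  rcases hx with hx | hx
  · refine ⟨r, ?_⟩
    have : ((t : (𝓞 K)ˣ) : 𝓞 K) = hζ.toInteger ^ r := by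
      apply RingOfIntegers.ext
      exact hx.trans (by simp only [map_pow]; rfl)
    rw [← this, htval]
  · exfalso
    have ht' : ((t : (𝓞 K)ˣ) : 𝓞 K) = - hζ.toInteger ^ r := by
      apply RingOfIntegers.ext
      exact hx.trans (by simp only [map_neg, map_pow]; rfl)
    rw [ht'] at htval
    obtain ⟨a, ha⟩ := exists_int_sub_dvd hζ (u : 𝓞 K)
    have ha' : hζ.toInteger - 1 ∣ σ u - a := by
      have : σ ((u : 𝓞 K) - a) = σ u - a := by simp
      rw [← this]
      exact hπσ.trans (map_dvd σ ha)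
    have h3 := pi_dvd_zeta_pow_sub_one hζ r
    have h2a : hζ.toInteger - 1 ∣ ((2 * a : ℤ) : 𝓞 K) := by
      have h0 : (u : 𝓞 K) + hζ.toInteger ^ r * σ u = 0 := by linear_combination -htval
      have : ((2 * a : ℤ) : 𝓞 K) = ((u : 𝓞 K) + hζ.toInteger ^ r * σ u) - (((u : 𝓞 K) - a)
          + hζ.toInteger ^ r * (σ u - a) + (hζ.toInteger ^ r - 1) * a) := by
        push_cast; ring
      rw [this, h0, zero_sub]
      exact (dvd_add (dvd_add ha (dvd_mul_of_dvd_right ha' _))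
        (dvd_mul_of_dvd_left h3 _)).neg_right
    rw [pi_dvd_intCast_iff] at h2a
    have hpa : (p : ℤ) ∣ a := by
      have hpprime : Prime (p : ℤ) := Nat.prime_iff_prime_int.mp hp.out
      rcases hpprime.dvd_mul.mp h2a with h | h
      · exfalso
        have : (p : ℤ) ≤ 2 := Int.le_of_dvd (by norm_num) h
        omega
      · exact h
    have hπu : hζ.toInteger - 1 ∣ (u : 𝓞 K) := by
      have : (u : 𝓞 K) = ((u : 𝓞 K) - a) + a := by ring
      rw [this]
      exact dvd_add ha ((pi_dvd_intCast_iff hζ).mpr hpa)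
    exact (pi_prime hζ).not_isUnit (isUnit_of_dvd_unit hπu u.isUnit)


end Fermat.Agent.Lib.FltRegular
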