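import Fermat.Agent.Lib.FltRegular.Basic

/-!
# Case I of Fermat's Last Theorem when the cyclotomic ring is a PID
-/

set_option autoImplicit false
set_option linter.unusedSectionVars false

open NumberField IsPrimitiveRoot

namespace Fermat.Agent.Lib.FltRegular

section General

lemma pow_add_pow_eq_prod_range {R : Type*} [CommRing R] [IsDomain R] {n : ℕ} {ζ : R}
    (hζ : IsPrimitiveRoot ζ n) (hodd : Odd n) (x y : R) :
    x ^ n + y ^ n = ∏ i ∈ Finset.range n, (x + ζ ^ i * y) := by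
  classical
  have : NeZero n := ⟨hodd.pos.ne'⟩
  rw [hζ.pow_add_pow_eq_prod_add_mul x y hodd]
  have : Polynomial.nthRootsFinset n (1 : R) = (Finset.range n).image (fun i => ζ ^ i) := by
    ext η
    rw [Polynomial.mem_nthRootsFinset hodd.pos, Finset.mem_image]
    constructor
    · intro h
      obtain ⟨i, hi, rfl⟩ := hζ.eq_pow_of_pow_eq_one h
      exact ⟨i, Finset.mem_range.mpr hi, rfl⟩
    · rintro ⟨i, -, rfl⟩
      rw [← pow_mul, mul_comm, pow_mul, hζ.pow_eq_one, one_pow]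
  rw [this, Finset.prod_image]
  intro i hi j hj hij
  exact hζ.pow_inj (Finset.mem_range.mp hi) (Finset.mem_range.mp hj) hij

/-- In a PID, if pairwise coprime elements have product a `n`-th power, each of them is
associated to an `n`-th power. -/
lemma exists_associated_pow_of_prod_eq_pow {ι R : Type*} [CommRing R] [IsDomain R]
    [IsPrincipalIdealRing R] {s : Finset ι} {f : ι → R} {c : R} {n : ℕ}
    (hcop : ∀ i ∈ s, ∀ j ∈ s, i ≠ j → IsCoprime (f i) (f j))
    (hprod : ∏ i ∈ s, f i = c ^ n) : ∀ i ∈ s, ∃ d : R, Associated (d ^ n) (f i) := by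
  classical
  intro i hi
  rw [← Finset.insert_erase hi, Finset.prod_insert (Finset.notMem_erase i s)] at hprod
  refine exists_associated_pow_of_mul_eq_pow'
    (IsCoprime.prod_right fun j hj => hcop i hi j (Finset.erase_subset i s hj) fun hij => ?_) hprod
  rw [hij] at hj
  exact (s.notMem_erase _) hj

end General

variable {p : ℕ} [hp : Fact p.Prime] {K : Type*} [Field K] [NumberField K]
  [hK : IsCyclotomicExtension {p} ℚ K] {ζ : K} (hζ : IsPrimitiveRoot ζ p)

include hζ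

/-- If `π ∣ x + ζ^i y` (integers `x`, `y`) then `p ∣ x + y`. -/
lemma dvd_add_of_pi_dvd {x y : ℤ} {i : ℕ}
    (h : hζ.toInteger - 1 ∣ (x : 𝓞 K) + hζ.toInteger ^ i * y) : (p : ℤ) ∣ x + y := by
  rw [← pi_dvd_intCast_iff hζ]
  have : ((x + y : ℤ) : 𝓞 K) = ((x : 𝓞 K) + hζ.toInteger ^ i * y) - (hζ.toInteger ^ i - 1) * y := by
    push_cast; ring
  rw [this]
  exact dvd_sub h (dvd_mul_of_dvd_left (pi_dvd_zeta_pow_sub_one hζ i) _)

omit hζ in
lemma dvd_of_dvd_add_of_pow_add_pow {x y z : ℤ} (h : x ^ p + y ^ p = z ^ p)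
    (hxy : (p : ℤ) ∣ x + y) : (p : ℤ) ∣ z := by
  have hpprime : Prime (p : ℤ) := Nat.prime_iff_prime_int.mp hp.out
  apply hpprime.dvd_of_dvd_pow (n := p)
  rw [← h]
  have h1 := dvd_add_pow_sub (p := p) x y
  have h2 : (p : ℤ) ∣ (x + y) ^ p := dvd_pow hxy hp.out.ne_zero
  have : x ^ p + y ^ p = (x + y) ^ p - ((x + y) ^ p - (x ^ p + y ^ p)) := by ring
  rw [this]
  exact dvd_sub h2 (by exact_mod_cast h1)

/-- The factors `x + ζ^i y` are pairwise coprime in Case I. -/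
lemma isCoprime_factors [IsPrincipalIdealRing (𝓞 K)] {x y z : ℤ} (hxy : IsCoprime x y)
    (h : x ^ p + y ^ p = z ^ p) (hz : ¬ (p : ℤ) ∣ z) {i j : ℕ} (hi : i < p) (hj : j < p)
    (hij : i ≠ j) :
    IsCoprime ((x : 𝓞 K) + hζ.toInteger ^ i * y) ((x : 𝓞 K) + hζ.toInteger ^ j * y) := by
  have hnotdvd : ∀ k : ℕ, ¬ hζ.toInteger - 1 ∣ (x : 𝓞 K) + hζ.toInteger ^ k * y := fun k hk =>
    hz (dvd_of_dvd_add_of_pow_add_pow h (dvd_add_of_pi_dvd hζ hk))
  have hmod : ¬ (i ≡ j [MOD p]) := by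
    intro hmod
    apply hij
    rwa [Nat.ModEq, Nat.mod_eq_of_lt hi, Nat.mod_eq_of_lt hj] at hmod
  have hassoc := associated_zeta_pow_sub_zeta_pow hζ hmod
  have hxyK : IsCoprime (x : 𝓞 K) (y : 𝓞 K) := hxy.intCast
  refine isCoprime_of_prime_dvd ?_ ?_
  · rintro ⟨h0, -⟩
    exact hnotdvd i (h0 ▸ dvd_zero _)
  · intro q hq hqi hqj
    have h1 : q ∣ (hζ.toInteger ^ i - hζ.toInteger ^ j) * y := by
      have : (hζ.toInteger ^ i - hζ.toInteger ^ j) * y =
          ((x : 𝓞 K) + hζ.toInteger ^ i * y) - ((x : 𝓞 K) + hζ.toInteger ^ j * y) := by ring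
      rw [this]; exact dvd_sub hqi hqj
    have h2 : q ∣ (hζ.toInteger ^ i - hζ.toInteger ^ j) * x := by
      have : (hζ.toInteger ^ i - hζ.toInteger ^ j) * x =
          hζ.toInteger ^ i * ((x : 𝓞 K) + hζ.toInteger ^ j * y) -
          hζ.toInteger ^ j * ((x : 𝓞 K) + hζ.toInteger ^ i * y) := by ring
      rw [this]; exact dvd_sub (dvd_mul_of_dvd_right hqj _) (dvd_mul_of_dvd_right hqi _)
    by_cases hqπ : q ∣ hζ.toInteger ^ i - hζ.toInteger ^ j
    · have : q ∣ hζ.toInteger - 1 := hqπ.trans hassoc.symm.dvd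
      have hass : Associated q (hζ.toInteger - 1) :=
        hq.associated_of_dvd (pi_prime hζ) this
      exact hnotdvd i (hass.symm.dvd.trans hqi)
    · have hqy := (hq.dvd_or_dvd h1).resolve_left hqπ
      have hqx := (hq.dvd_or_dvd h2).resolve_left hqπ
      exact hq.not_isUnit (hxyK.isUnit_of_dvd' hqx hqy)



/-- The key congruence of Case I: `x + ζ y ≡ ζ^k (x + ζ^(p-1) y)` modulo `p` for some `k`. -/
lemma caseI_congruence [IsPrincipalIdealRing (𝓞 K)] (hp2 : 2 < p) {x y z : ℤ}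
    (hxy : IsCoprime x y) (h : x ^ p + y ^ p = z ^ p) (hz : ¬ (p : ℤ) ∣ z) :
    ∃ k : ℕ, (p : 𝓞 K) ∣ ((x : 𝓞 K) + hζ.toInteger * y) -
      hζ.toInteger ^ k * ((x : 𝓞 K) + hζ.toInteger ^ (p - 1) * y) := by
  have hodd : Odd p := hp.out.odd_of_ne_two (by omega)
  have hprod : ∏ i ∈ Finset.range p, ((x : 𝓞 K) + hζ.toInteger ^ i * y) = (z : 𝓞 K) ^ p := by
    rw [← pow_add_pow_eq_prod_range hζ.toInteger_isPrimitiveRoot hodd]
    exact_mod_cast congrArg (Int.cast : ℤ → 𝓞 K) h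
  have h1mem : 1 ∈ Finset.range p := Finset.mem_range.mpr hp.out.one_lt
  obtain ⟨α, hα⟩ := exists_associated_pow_of_prod_eq_pow
    (fun i hi j hj hij => isCoprime_factors hζ hxy h hz (Finset.mem_range.mp hi)
      (Finset.mem_range.mp hj) hij) hprod 1 h1mem
  obtain ⟨u, hu⟩ := hα
  rw [pow_one] at hu
  obtain ⟨σ, hσζ, hσu⟩ := exists_conj hζ hp2
  obtain ⟨k, hk⟩ := hσu u
  obtain ⟨a, ha⟩ := exists_int_pow_sub_dvd hζ α
  have hσp : σ (p : 𝓞 K) = p := map_natCast σ p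
  have ha' : (p : 𝓞 K) ∣ σ α ^ p - a := by
    have : σ (α ^ p - a) = σ α ^ p - a := by simp
    rw [← this]
    have := map_dvd σ ha
    rwa [hσp] at this
  have hσζ' : σ hζ.toInteger = hζ.toInteger ^ (p - 1) := by
    have h1 : hζ.toInteger ^ (p - 1) * hζ.toInteger = 1 := by
      rw [← pow_succ, Nat.sub_add_cancel hp.out.one_le, zeta_pow_p hζ]
    have hu := zeta_isUnit hζ
    exact hu.mul_right_cancel (hσζ.trans h1.symm)
  have hσA : σ ((x : 𝓞 K) + hζ.toInteger * y) = (x : 𝓞 K) + hζ.toInteger ^ (p - 1) * y := by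
    simp [hσζ']
  refine ⟨k, ?_⟩
  have e1 : (x : 𝓞 K) + hζ.toInteger * y = α ^ p * (hζ.toInteger ^ k * σ u) :=
    hu.symm.trans (congrArg (fun t => α ^ p * t) hk)
  have e2 : (x : 𝓞 K) + hζ.toInteger ^ (p - 1) * y = σ α ^ p * σ u := by
    rw [← hσA, ← hu, map_mul, map_pow]
  rw [e1, e2]
  have : α ^ p * (hζ.toInteger ^ k * σ ↑u) - hζ.toInteger ^ k * (σ α ^ p * σ ↑u) =
      hζ.toInteger ^ k * σ u * ((α ^ p - a) - (σ α ^ p - a)) := by ring
  rw [this]
  exact dvd_mul_of_dvd_right (dvd_sub ha ha') _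




lemma sum_ite_mul_zeta_pow (a : ℕ) (ha : a < p) (c : ℤ) :
    ∑ i ∈ Finset.range p, (((if i = a then c else 0 : ℤ)) : 𝓞 K) * hζ.toInteger ^ i =
      c * hζ.toInteger ^ a := by
  rw [Finset.sum_eq_single a]
  · simp
  · intro b _ hb; simp [hb]
  · intro h; exact absurd (Finset.mem_range.mpr ha) h

lemma zeta_pow_mod (k : ℕ) : hζ.toInteger ^ (k % p) = hζ.toInteger ^ k := by
  conv_rhs => rw [← Nat.div_add_mod k p, pow_add, pow_mul, zeta_pow_p hζ, one_pow, one_mul]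

/-- From the congruence in Case I, `p ∣ x - y`. -/
lemma dvd_sub_of_congruence (hp5 : 5 ≤ p) {x y : ℤ} (hx : ¬ (p : ℤ) ∣ x) (hy : ¬ (p : ℤ) ∣ y)
    {k : ℕ} (hk : (p : 𝓞 K) ∣ ((x : 𝓞 K) + hζ.toInteger * y) -
      hζ.toInteger ^ k * ((x : 𝓞 K) + hζ.toInteger ^ (p - 1) * y)) : (p : ℤ) ∣ x - y := by
  set k' := k % p with hk'
  have hk'lt : k' < p := Nat.mod_lt _ hp.out.pos
  set m := (k' + (p - 1)) % p with hm
  have hmlt : m < p := Nat.mod_lt _ hp.out.pos
  let f : ℕ → ℤ := fun i => (if i = 0 then x else 0) + (if i = 1 then y else 0)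
    - (if i = k' then x else 0) - (if i = m then y else 0)
  have hsum : ∑ i ∈ Finset.range p, (f i : 𝓞 K) * hζ.toInteger ^ i =
      ((x : 𝓞 K) + hζ.toInteger * y) -
      hζ.toInteger ^ k * ((x : 𝓞 K) + hζ.toInteger ^ (p - 1) * y) := by
    have e : ∀ i, (f i : 𝓞 K) * hζ.toInteger ^ i =
        (((if i = 0 then x else 0 : ℤ)) : 𝓞 K) * hζ.toInteger ^ i +
        (((if i = 1 then y else 0 : ℤ)) : 𝓞 K) * hζ.toInteger ^ i -
        (((if i = k' then x else 0 : ℤ)) : 𝓞 K) * hζ.toInteger ^ i -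
        (((if i = m then y else 0 : ℤ)) : 𝓞 K) * hζ.toInteger ^ i := by
      intro i; simp only [f]; push_cast; ring
    simp_rw [e]
    rw [Finset.sum_sub_distrib, Finset.sum_sub_distrib, Finset.sum_add_distrib,
      sum_ite_mul_zeta_pow hζ 0 hp.out.pos, sum_ite_mul_zeta_pow hζ 1 hp.out.one_lt,
      sum_ite_mul_zeta_pow hζ k' hk'lt, sum_ite_mul_zeta_pow hζ m hmlt]
    have e1 : hζ.toInteger ^ k' = hζ.toInteger ^ k := zeta_pow_mod hζ k
    have e2 : hζ.toInteger ^ m = hζ.toInteger ^ k * hζ.toInteger ^ (p - 1) := by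
      rw [hm, zeta_pow_mod hζ, pow_add, e1]
    rw [e1, e2]
    ring
  rw [← hsum] at hk
  obtain ⟨c, hc⟩ := exists_const_of_dvd_sum hζ f hk
  have hf : ∀ i, f i = (if i = 0 then x else 0) + (if i = 1 then y else 0)
    - (if i = k' then x else 0) - (if i = m then y else 0) := fun i => rfl
  have h0 := hc 0 hp.out.pos
  have h1 := hc 1 hp.out.one_lt
  have h2 := hc 2 (by omega)
  have h3 := hc 3 (by omega)
  have h4 := hc 4 (by omega)
  rw [hf] at h0 h1 h2 h3 h4
  rcases Nat.lt_or_ge k' 3 with hlt | hge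
  · interval_cases hkk : k'
    · -- k' = 0, m = p - 1
      have hm' : m = p - 1 := by rw [hm, zero_add, Nat.mod_eq_of_lt (by omega)]
      exfalso
      simp only [hm', show (0 : ℕ) ≠ 1 from by omega, show (0 : ℕ) ≠ p - 1 from by omega,
        show (1 : ℕ) ≠ 0 from by omega, show (1 : ℕ) ≠ p - 1 from by omega, if_true, if_false] at h0 h1
      apply hy
      have := dvd_sub h1 h0
      simpa using this
    · -- k' = 1, m = 0
      have hm' : m = 0 := by
        rw [hm, show 1 + (p - 1) = p from by omega, Nat.mod_self]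
      simp only [hm', show (0 : ℕ) ≠ 1 from by omega, show (2 : ℕ) ≠ 1 from by omega,
        show (2 : ℕ) ≠ 0 from by omega, if_true, if_false] at h0 h2
      have := dvd_sub h0 h2
      simpa using this
    · -- k' = 2, m = 1
      have hm' : m = 1 := by
        rw [hm, show 2 + (p - 1) = p + 1 from by omega, Nat.add_mod_left, Nat.mod_eq_of_lt (by omega)]
      exfalso
      simp only [hm', show (0 : ℕ) ≠ 1 from by omega, show (0 : ℕ) ≠ 2 from by omega,
        show (3 : ℕ) ≠ 1 from by omega, show (3 : ℕ) ≠ 2 from by omega,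
        show (3 : ℕ) ≠ 0 from by omega, if_true, if_false] at h0 h3
      apply hx
      have := dvd_sub h0 h3
      simpa using this
  · -- k' ≥ 3, m = k' - 1
    have hm' : m = k' - 1 := by
      rw [hm, show k' + (p - 1) = p + (k' - 1) from by omega, Nat.add_mod_left,
        Nat.mod_eq_of_lt (by omega)]
    exfalso
    apply hx
    rcases Nat.lt_or_ge k' 4 with hlt4 | hge4
    · have hk3 : k' = 3 := by omega
      simp only [hm', hk3, show (0 : ℕ) ≠ 1 from by omega, show (0 : ℕ) ≠ 3 from by omega,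
        show (0 : ℕ) ≠ 3 - 1 from by omega, show (4 : ℕ) ≠ 1 from by omega,
        show (4 : ℕ) ≠ 3 from by omega, show (4 : ℕ) ≠ 3 - 1 from by omega,
        show (4 : ℕ) ≠ 0 from by omega, if_true, if_false] at h0 h4
      have := dvd_sub h0 h4
      simpa using this
    · simp only [hm', show (0 : ℕ) ≠ 1 from by omega, show (0 : ℕ) ≠ k' from by omega,
        show (0 : ℕ) ≠ k' - 1 from by omega, show (2 : ℕ) ≠ 1 from by omega,
        show (2 : ℕ) ≠ k' from by omega, show (2 : ℕ) ≠ k' - 1 from by omega,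
        show (2 : ℕ) ≠ 0 from by omega, if_true, if_false] at h0 h2
      have := dvd_sub h0 h2
      simpa using this




/-- Case I, main step: `p ∣ x - y`. -/
lemma caseI_dvd_sub [IsPrincipalIdealRing (𝓞 K)] (hp5 : 5 ≤ p) {x y z : ℤ}
    (hxy : IsCoprime x y) (h : x ^ p + y ^ p = z ^ p) (hx : ¬ (p : ℤ) ∣ x) (hy : ¬ (p : ℤ) ∣ y)
    (hz : ¬ (p : ℤ) ∣ z) : (p : ℤ) ∣ x - y := by
  obtain ⟨k, hk⟩ := caseI_congruence hζ (by omega) hxy h hz
  exact dvd_sub_of_congruence hζ hp5 hx hy hk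

/-- Case I of Fermat's Last Theorem for `p ≥ 5` when `𝓞 K` is a PID. -/
theorem caseI [IsPrincipalIdealRing (𝓞 K)] (hp5 : 5 ≤ p) {x y z : ℤ}
    (hxy : IsCoprime x y) (h : x ^ p + y ^ p = z ^ p) (hx : ¬ (p : ℤ) ∣ x) (hy : ¬ (p : ℤ) ∣ y)
    (hz : ¬ (p : ℤ) ∣ z) : False := by
  have hodd : Odd p := hp.out.odd_of_ne_two (by omega)
  have hpprime : Prime (p : ℤ) := Nat.prime_iff_prime_int.mp hp.out
  have h1 := caseI_dvd_sub hζ hp5 hxy h hx hy hz
  -- the equation `x^p + (-z)^p = (-y)^p`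
  have h' : x ^ p + (-z) ^ p = (-y) ^ p := by
    rw [hodd.neg_pow, hodd.neg_pow]; linarith
  have hxz : IsCoprime x (-z) := by
    rw [IsCoprime.neg_right_iff]
    have : IsCoprime (x ^ p) (z ^ p) := by
      rw [← h]
      have := (hxy.pow (m := p) (n := p))
      rw [add_comm]
      simpa using this.add_mul_left_right 1
    exact (IsCoprime.pow_iff hp.out.pos hp.out.pos).mp this
  have h2 := caseI_dvd_sub hζ hp5 hxz h' hx (by rwa [dvd_neg]) (by rwa [dvd_neg])
  rw [sub_neg_eq_add] at h2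
  -- `3 x^p ≡ 0 mod p`
  have h3 : (p : ℤ) ∣ y ^ p - x ^ p := by
    have : y - x ∣ y ^ p - x ^ p := sub_dvd_pow_sub_pow y x p
    exact (dvd_neg.mp (by rwa [neg_sub])).trans this
  have h4 : (p : ℤ) ∣ x ^ p + z ^ p := h2.trans (hodd.add_dvd_pow_add_pow x z)
  have h5 : (p : ℤ) ∣ 3 * x ^ p := by
    have : 3 * x ^ p = (x ^ p + z ^ p) - (y ^ p - x ^ p) + (x ^ p + y ^ p - z ^ p) := by ring
    rw [this, h, sub_self, add_zero]
    exact dvd_sub h4 h3
  rcases hpprime.dvd_mul.mp h5 with h6 | h6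
  · have : (p : ℤ) ≤ 3 := Int.le_of_dvd (by norm_num) h6
    omega
  · exact hx (hpprime.dvd_of_dvd_pow h6)


end Fermat.Agent.Lib.FltRegular
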