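import Fermat.Agent.Lib.FltRegular.CaseI

/-!
# Case II of Fermat's Last Theorem when the cyclotomic ring is a PID and Kummer's lemma holds
-/

set_option autoImplicit false
set_option linter.unusedSectionVars false

open NumberField IsPrimitiveRoot Finset

namespace Fermat.Agent.Lib.FltRegular

section General

/-- In a PID, if pairwise coprime elements have product associated to an `n`-th power, each of
them is associated to an `n`-th power. -/
lemma exists_associated_pow_of_prod_associated_pow {ι R : Type*} [CommRing R] [IsDomain R]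
    [IsPrincipalIdealRing R] {s : Finset ι} {f : ι → R} {c : R} {n : ℕ}
    (hcop : ∀ i ∈ s, ∀ j ∈ s, i ≠ j → IsCoprime (f i) (f j))
    (hprod : Associated (∏ i ∈ s, f i) (c ^ n)) : ∀ i ∈ s, ∃ d : R, Associated (d ^ n) (f i) := by
  classical
  intro i hi
  obtain ⟨v, hv⟩ := hprod
  rw [← Finset.insert_erase hi, Finset.prod_insert (Finset.notMem_erase i s), mul_assoc] at hv
  refine exists_associated_pow_of_mul_eq_pow' ?_ hv
  refine (IsCoprime.prod_right fun j hj => hcop i hi j (Finset.erase_subset i s hj)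
    fun hij => ?_).mul_right (isCoprime_one_right.of_isCoprime_of_dvd_right v.isUnit.dvd)
  rw [hij] at hj
  exact (s.notMem_erase _) hj

end General

variable {p : ℕ} [hp : Fact p.Prime] {K : Type*} [Field K] [NumberField K]
  [hK : IsCyclotomicExtension {p} ℚ K] {ζ : K} (hζ : IsPrimitiveRoot ζ p)

include hζ

lemma pi_dvd_zeta_pow_sub_zeta_pow (i j : ℕ) :
    hζ.toInteger - 1 ∣ hζ.toInteger ^ i - hζ.toInteger ^ j := by
  have : hζ.toInteger ^ i - hζ.toInteger ^ j =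
      (hζ.toInteger ^ i - 1) - (hζ.toInteger ^ j - 1) := by ring
  rw [this]
  exact dvd_sub (pi_dvd_zeta_pow_sub_one hζ i) (pi_dvd_zeta_pow_sub_one hζ j)

/-- Step 1: `π` divides every factor `a + ζ^i b`. -/
lemma pi_dvd_factor (hp2 : p ≠ 2) {a b c : 𝓞 K} {u : (𝓞 K)ˣ} {m : ℕ} (hm : 1 ≤ m)
    (H : a ^ p + b ^ p = u * (hζ.toInteger - 1) ^ (p * m) * c ^ p) (i : ℕ) :
    hζ.toInteger - 1 ∣ a + hζ.toInteger ^ i * b := by
  have hodd : Odd p := hp.out.odd_of_ne_two hp2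
  have hprod := pow_add_pow_eq_prod_range hζ.toInteger_isPrimitiveRoot hodd a b
  have hdvd : hζ.toInteger - 1 ∣ ∏ i ∈ Finset.range p, (a + hζ.toInteger ^ i * b) := by
    rw [← hprod, H]
    refine dvd_mul_of_dvd_left (dvd_mul_of_dvd_right (dvd_pow_self _ ?_) _) _
    have := hp.out.pos
    positivity
  obtain ⟨j, -, hj⟩ := (pi_prime hζ).exists_mem_finset_dvd hdvd
  have : a + hζ.toInteger ^ i * b =
      (a + hζ.toInteger ^ j * b) + (hζ.toInteger ^ i - hζ.toInteger ^ j) * b := by ring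
  rw [this]
  exact dvd_add hj (dvd_mul_of_dvd_left (pi_dvd_zeta_pow_sub_zeta_pow hζ i j) _)

/-- The geometric sum `1 + ζ + ... + ζ^(i-1)` is congruent to `i` modulo `π`. -/
lemma pi_dvd_geom_sum_sub (i : ℕ) :
    hζ.toInteger - 1 ∣ (∑ j ∈ Finset.range i, hζ.toInteger ^ j) - (i : 𝓞 K) := by
  have : (∑ j ∈ Finset.range i, hζ.toInteger ^ j) - (i : 𝓞 K) =
      ∑ j ∈ Finset.range i, (hζ.toInteger ^ j - 1) := by
    rw [Finset.sum_sub_distrib]; simp
  rw [this]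
  exact Finset.dvd_sum fun j _ => pi_dvd_zeta_pow_sub_one hζ j



/-- Step 2: some factor `a + ζ^i b` is divisible by `π^2`. -/
lemma exists_pi_sq_dvd {a b : 𝓞 K} (h1 : ∀ i : ℕ, hζ.toInteger - 1 ∣ a + hζ.toInteger ^ i * b)
    (hb : ¬ hζ.toInteger - 1 ∣ b) : ∃ i : ℕ, (hζ.toInteger - 1) ^ 2 ∣ a + hζ.toInteger ^ i * b := by
  obtain ⟨s, hs⟩ := h1 0
  rw [pow_zero, one_mul] at hs
  obtain ⟨s0, hs0⟩ := exists_int_sub_dvd hζ s
  obtain ⟨b0, hb0⟩ := exists_int_sub_dvd hζ b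
  have hpb0 : ¬ (p : ℤ) ∣ b0 := by
    intro h
    apply hb
    have : b = (b - b0) + b0 := by ring
    rw [this]
    exact dvd_add hb0 ((pi_dvd_intCast_iff hζ).mpr h)
  have hb0' : (b0 : ZMod p) ≠ 0 := by rwa [Ne, ZMod.intCast_zmod_eq_zero_iff_dvd]
  set t : ℕ := (-(s0 : ZMod p) / (b0 : ZMod p)).val with ht
  have hpt : (p : ℤ) ∣ s0 + t * b0 := by
    rw [← ZMod.intCast_zmod_eq_zero_iff_dvd]
    push_cast
    rw [ht, ZMod.natCast_val, ZMod.cast_id', id]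
    field_simp
    ring
  refine ⟨t, ?_⟩
  have hgeom : (hζ.toInteger - 1) * ∑ j ∈ Finset.range t, hζ.toInteger ^ j =
      hζ.toInteger ^ t - 1 := mul_geom_sum _ _
  set g := ∑ j ∈ Finset.range t, hζ.toInteger ^ j with hg
  have e : a + hζ.toInteger ^ t * b = (hζ.toInteger - 1) * (s + g * b) := by
    have : a + hζ.toInteger ^ t * b = (a + b) + (hζ.toInteger ^ t - 1) * b := by ring
    rw [this, hs, ← hgeom]; ring
  rw [e, pow_two]
  refine mul_dvd_mul_left _ ?_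
  have e2 : s + g * b = (s - s0) + (g - t) * b + t * (b - b0) + ((s0 + t * b0 : ℤ) : 𝓞 K) := by
    push_cast; ring
  rw [e2]
  refine dvd_add (dvd_add (dvd_add hs0 (dvd_mul_of_dvd_left (pi_dvd_geom_sum_sub hζ t) _))
    (dvd_mul_of_dvd_right hb0 _)) ((pi_dvd_intCast_iff hζ).mpr hpt)




/-- Data produced by the first half of the descent: the quotients `x i = (a + ζ^i b)/π`. -/
lemma descent_factors [IsPrincipalIdealRing (𝓞 K)] (hp2 : p ≠ 2)
    {a b c : 𝓞 K} {u : (𝓞 K)ˣ} {m : ℕ} (hm : 1 ≤ m)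
    (hb : ¬ hζ.toInteger - 1 ∣ b) (hc : ¬ hζ.toInteger - 1 ∣ c) (hab : IsCoprime a b)
    (H : a ^ p + b ^ p = u * (hζ.toInteger - 1) ^ (p * m) * c ^ p)
    (hsq : (hζ.toInteger - 1) ^ 2 ∣ a + b) :
    2 ≤ m ∧ ∃ (w0 y1 y2 : 𝓞 K) (v0 v1 v2 : (𝓞 K)ˣ),
      ¬ hζ.toInteger - 1 ∣ w0 ∧ ¬ hζ.toInteger - 1 ∣ y1 ∧ ¬ hζ.toInteger - 1 ∣ y2 ∧
      IsCoprime y1 y2 ∧
      hζ.toInteger * (y2 ^ p * v2) + y1 ^ p * v1 =
        (1 + hζ.toInteger) * ((hζ.toInteger - 1) ^ (p * (m - 1)) * (w0 ^ p * v0)) := by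
  have hodd : Odd p := hp.out.odd_of_ne_two hp2
  have hp3 : 3 ≤ p := by
    have := hp.out.two_le
    omega
  have hπ := pi_prime hζ
  have h1 := pi_dvd_factor hζ hp2 hm H
  choose x hx using h1
  have hx0 : hζ.toInteger - 1 ∣ x 0 := by
    have : (hζ.toInteger - 1) ^ 2 ∣ (hζ.toInteger - 1) * x 0 := by
      rw [← hx 0]; simpa using hsq
    rw [pow_two] at this
    exact (mul_dvd_mul_iff_left hπ.ne_zero).mp this
  have hxi : ∀ i, 0 < i → i < p → ¬ hζ.toInteger - 1 ∣ x i := by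
    intro i hi0 hip hdiv
    have h2 : (hζ.toInteger - 1) ^ 2 ∣ (hζ.toInteger ^ i - 1) * b := by
      have : (hζ.toInteger ^ i - 1) * b = (a + hζ.toInteger ^ i * b) - (a + b) := by ring
      rw [this, hx i]
      refine dvd_sub ?_ hsq
      rw [pow_two]
      exact mul_dvd_mul_left _ hdiv
    obtain ⟨v, hv⟩ := associated_zeta_pow_sub_one hζ (Nat.not_dvd_of_pos_of_lt hi0 hip)
    rw [← hv, pow_two, mul_assoc] at h2
    have := (mul_dvd_mul_iff_left hπ.ne_zero).mp h2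
    exact hb ((IsUnit.dvd_mul_left v.isUnit).mp this)
  have hcop : ∀ i ∈ range p, ∀ j ∈ range p, i ≠ j → IsCoprime (x i) (x j) := by
    intro i hi j hj hij
    have hne : ¬ (hζ.toInteger - 1 ∣ x i ∧ hζ.toInteger - 1 ∣ x j) := by
      rintro ⟨h1, h2⟩
      rcases Nat.eq_zero_or_pos i with rfl | hi0
      · exact hxi j (Nat.pos_of_ne_zero (Ne.symm hij)) (mem_range.mp hj) h2
      · exact hxi i hi0 (mem_range.mp hi) h1
    have hmod : ¬ (i ≡ j [MOD p]) := by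
      intro hmod
      apply hij
      rwa [Nat.ModEq, Nat.mod_eq_of_lt (mem_range.mp hi), Nat.mod_eq_of_lt (mem_range.mp hj)]
        at hmod
    obtain ⟨v, hv⟩ := associated_zeta_pow_sub_zeta_pow hζ hmod
    refine isCoprime_of_prime_dvd ?_ ?_
    · rintro ⟨h0, h0'⟩
      exact hne ⟨h0 ▸ dvd_zero _, h0' ▸ dvd_zero _⟩
    · intro q hq hqi hqj
      have e1' : (v : 𝓞 K) * b = x i - x j := by
        apply mul_left_cancel₀ hπ.ne_zero
        rw [← mul_assoc, hv, mul_sub, ← hx i, ← hx j]; ring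
      have e2' : (v : 𝓞 K) * a = hζ.toInteger ^ i * x j - hζ.toInteger ^ j * x i := by
        apply mul_left_cancel₀ hπ.ne_zero
        rw [← mul_assoc, hv, mul_sub, mul_left_comm _ (hζ.toInteger ^ i), ← hx j,
          mul_left_comm _ (hζ.toInteger ^ j), ← hx i]; ring
      have hqb : q ∣ b := by
        have : q ∣ (v : 𝓞 K) * b := e1' ▸ dvd_sub hqi hqj
        exact (IsUnit.dvd_mul_left v.isUnit).mp this
      have hqa : q ∣ a := by
        have : q ∣ (v : 𝓞 K) * a :=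
          e2' ▸ dvd_sub (dvd_mul_of_dvd_right hqj _) (dvd_mul_of_dvd_right hqi _)
        exact (IsUnit.dvd_mul_left v.isUnit).mp this
      exact hq.not_isUnit (hab.isUnit_of_dvd' hqa hqb)
  -- the product of the `x i`
  have hprod : (∏ i ∈ range p, x i) * (hζ.toInteger - 1) ^ p =
      u * (hζ.toInteger - 1) ^ (p * m) * c ^ p := by
    rw [← H, pow_add_pow_eq_prod_range hζ.toInteger_isPrimitiveRoot hodd a b]
    simp_rw [hx]
    rw [Finset.prod_mul_distrib, Finset.prod_const, card_range]; ring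
  have hpm : p * m = p * (m - 1) + p := by
    obtain ⟨m', rfl⟩ := Nat.exists_eq_add_of_le hm
    simp [Nat.mul_add, Nat.add_comm]
  have hprod' : ∏ i ∈ range p, x i = u * (hζ.toInteger - 1) ^ (p * (m - 1)) * c ^ p := by
    apply mul_right_cancel₀ (pow_ne_zero p hπ.ne_zero)
    rw [hprod, hpm, pow_add]; ring
  -- split off `x 0`
  have hp1 : p - 1 + 1 = p := Nat.sub_add_cancel hp.out.one_le
  have hr : range p = range (p - 1 + 1) := by rw [hp1]
  set P' := ∏ i ∈ range (p - 1), x (i + 1) with hP'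
  have hsplit : ∏ i ∈ range p, x i = P' * x 0 := by
    rw [hr, Finset.prod_range_succ']
  have hP'π : ¬ hζ.toInteger - 1 ∣ P' := by
    intro h
    obtain ⟨i, hi, hdiv⟩ := hπ.exists_mem_finset_dvd h
    exact hxi (i + 1) (Nat.succ_pos i) (by have := mem_range.mp hi; omega) hdiv
  have hcopπ : IsCoprime ((hζ.toInteger - 1) ^ (p * (m - 1))) P' :=
    (hπ.coprime_iff_not_dvd.mpr hP'π).pow_left
  have hdvd0 : (hζ.toInteger - 1) ^ (p * (m - 1)) ∣ x 0 := by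
    refine hcopπ.dvd_of_dvd_mul_left ?_
    rw [← hsplit, hprod']
    exact dvd_mul_of_dvd_left (dvd_mul_left _ _) _
  obtain ⟨x0', hx0'⟩ := hdvd0
  have hprod0 : P' * x0' = u * c ^ p := by
    apply mul_left_cancel₀ (pow_ne_zero (p * (m - 1)) hπ.ne_zero)
    have : (hζ.toInteger - 1) ^ (p * (m - 1)) * (P' * x0') = P' * x 0 := by rw [hx0']; ring
    rw [this, ← hsplit, hprod']; ring
  have hx0'π : ¬ hζ.toInteger - 1 ∣ x0' := by
    intro h
    have : hζ.toInteger - 1 ∣ (u : 𝓞 K) * c ^ p := hprod0 ▸ dvd_mul_of_dvd_right h _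
    rcases hπ.dvd_or_dvd this with h' | h'
    · exact hπ.not_isUnit (isUnit_of_dvd_unit h' u.isUnit)
    · exact hc (hπ.dvd_of_dvd_pow h')
  have hm2 : 2 ≤ m := by
    by_contra hlt
    have hm1 : m = 1 := by omega
    rw [hm1, Nat.sub_self, mul_zero, pow_zero, one_mul] at hx0'
    exact hx0'π (hx0' ▸ hx0)
  refine ⟨hm2, ?_⟩
  -- the modified family
  let g : ℕ → 𝓞 K := fun i => if i = 0 then x0' else x i
  have hg0 : g 0 = x0' := if_pos rfl
  have hgi : ∀ i, i ≠ 0 → g i = x i := fun i hi => if_neg hi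
  have hgdvd : ∀ i, g i ∣ x i := by
    intro i
    rcases Nat.eq_zero_or_pos i with rfl | hi
    · rw [hg0, hx0']; exact dvd_mul_left _ _
    · rw [hgi i hi.ne']
  have hgcop : ∀ i ∈ range p, ∀ j ∈ range p, i ≠ j → IsCoprime (g i) (g j) := fun i hi j hj hij =>
    ((hcop i hi j hj hij).of_isCoprime_of_dvd_left (hgdvd i)).of_isCoprime_of_dvd_right (hgdvd j)
  have hgprod : ∏ i ∈ range p, g i = u * c ^ p := by
    rw [hr, Finset.prod_range_succ', hg0, ← hprod0, hP']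
    rfl
  have hgassoc : Associated (∏ i ∈ range p, g i) (c ^ p) := by
    rw [hgprod]; exact associated_unit_mul_left _ _ u.isUnit
  have hpow := exists_associated_pow_of_prod_associated_pow hgcop hgassoc
  have h0mem : 0 ∈ range p := mem_range.mpr hp.out.pos
  have h1mem : 1 ∈ range p := mem_range.mpr hp.out.one_lt
  have h2mem : p - 1 ∈ range p := mem_range.mpr (by omega)
  obtain ⟨w0, v0, hw0⟩ := hpow 0 h0mem
  obtain ⟨y1, v1, hy1⟩ := hpow 1 h1mem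
  obtain ⟨y2, v2, hy2⟩ := hpow (p - 1) h2mem
  rw [hg0] at hw0
  rw [hgi 1 one_ne_zero] at hy1
  rw [hgi (p - 1) (by omega)] at hy2
  refine ⟨w0, y1, y2, v0, v1, v2, ?_, ?_, ?_, ?_, ?_⟩
  · intro h
    exact hx0'π (hw0 ▸ dvd_mul_of_dvd_left (dvd_pow h hp.out.ne_zero) _)
  · intro h
    exact hxi 1 one_pos hp.out.one_lt (hy1 ▸ dvd_mul_of_dvd_left (dvd_pow h hp.out.ne_zero) _)
  · intro h
    exact hxi (p - 1) (by omega) (by omega)
      (hy2 ▸ dvd_mul_of_dvd_left (dvd_pow h hp.out.ne_zero) _)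
  · have h12 := hcop 1 h1mem (p - 1) h2mem (by omega)
    rw [← hy1, ← hy2] at h12
    exact (IsCoprime.pow_iff hp.out.pos hp.out.pos).mp h12.of_mul_left_left.of_mul_right_left
  · rw [hw0, hy1, hy2]
    apply mul_left_cancel₀ hπ.ne_zero
    have e1 : (hζ.toInteger - 1) * (hζ.toInteger * x (p - 1) + x 1) =
        hζ.toInteger * (a + hζ.toInteger ^ (p - 1) * b) + (a + hζ.toInteger ^ 1 * b) := by
      rw [hx, hx]; ring
    have e2 : hζ.toInteger * hζ.toInteger ^ (p - 1) = 1 := by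
      rw [← pow_succ', hp1, zeta_pow_p hζ]
    have e3 : (hζ.toInteger - 1) * ((1 + hζ.toInteger) * ((hζ.toInteger - 1) ^ (p * (m - 1)) * x0'))
        = (1 + hζ.toInteger) * (a + hζ.toInteger ^ 0 * b) := by
      rw [hx 0, hx0']; ring
    rw [e1, e3, mul_add, ← mul_assoc, e2]; ring




/-- The use of Kummer's lemma in the descent: if `y1^p + ε y2^p` is divisible by `p` with `y2`
prime to `π`, then the unit `ε` is a `p`-th power. -/
lemma unit_eq_pow_of_dvd (hKL : KummerLemma p K) {y1 y2 : 𝓞 K} {ε : (𝓞 K)ˣ}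
    (hy2 : ¬ hζ.toInteger - 1 ∣ y2) (h : (p : 𝓞 K) ∣ y1 ^ p + ε * y2 ^ p) :
    ∃ ε1 : (𝓞 K)ˣ, ε = ε1 ^ p := by
  obtain ⟨r, s, hrs⟩ := IsCyclotomicExtension.Rat.isCoprime_of_not_zeta_sub_one_dvd p hζ hy2
  obtain ⟨n, hn⟩ := exists_int_pow_sub_dvd hζ (s * y1)
  have ht : (p : 𝓞 K) ∣ (s * y2) ^ p - 1 := by
    have h1 : s * y2 - 1 ∣ (s * y2) ^ p - 1 ^ p := sub_dvd_pow_sub_pow _ _ _
    rw [one_pow] at h1
    refine dvd_trans ?_ h1
    have : s * y2 - 1 = -(r * p) := by linear_combination hrs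
    rw [this]
    exact (dvd_mul_left _ _).neg_right
  refine hKL ε ⟨-n, ?_⟩
  have : (ε : 𝓞 K) - ((-n : ℤ) : 𝓞 K) = s ^ p * (y1 ^ p + ε * y2 ^ p) - ((s * y1) ^ p - n)
      - ε * ((s * y2) ^ p - 1) := by
    push_cast; ring
  rw [this]
  exact dvd_sub (dvd_sub (dvd_mul_of_dvd_right h _) hn) (dvd_mul_of_dvd_right ht _)

/-- The descent step, assuming `π^2 ∣ a + b`. -/
lemma descent_of_sq_dvd [IsPrincipalIdealRing (𝓞 K)] (hp2 : p ≠ 2) (hKL : KummerLemma p K)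
    {a b c : 𝓞 K} {u : (𝓞 K)ˣ} {m : ℕ} (hm : 1 ≤ m)
    (hb : ¬ hζ.toInteger - 1 ∣ b) (hc : ¬ hζ.toInteger - 1 ∣ c) (hab : IsCoprime a b)
    (H : a ^ p + b ^ p = u * (hζ.toInteger - 1) ^ (p * m) * c ^ p)
    (hsq : (hζ.toInteger - 1) ^ 2 ∣ a + b) :
    2 ≤ m ∧ ∃ (a' b' c' : 𝓞 K) (u' : (𝓞 K)ˣ), ¬ hζ.toInteger - 1 ∣ a' ∧ ¬ hζ.toInteger - 1 ∣ b' ∧
      ¬ hζ.toInteger - 1 ∣ c' ∧ IsCoprime a' b' ∧
      a' ^ p + b' ^ p = u' * (hζ.toInteger - 1) ^ (p * (m - 1)) * c' ^ p := by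
  obtain ⟨hm2, w0, y1, y2, v0, v1, v2, hw0, hy1, hy2, hcop, hrel⟩ :=
    descent_factors hζ hp2 hm hb hc hab H hsq
  refine ⟨hm2, ?_⟩
  have hπ := pi_prime hζ
  set ζu : (𝓞 K)ˣ := (zeta_isUnit hζ).unit with hζu
  set ηu : (𝓞 K)ˣ := (one_add_zeta_isUnit hζ hp2).unit with hηu
  have hζu' : (ζu : 𝓞 K) = hζ.toInteger := (zeta_isUnit hζ).unit_spec
  have hηu' : (ηu : 𝓞 K) = 1 + hζ.toInteger := (one_add_zeta_isUnit hζ hp2).unit_spec
  set ε : (𝓞 K)ˣ := ζu * v2 * v1⁻¹ with hε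
  set η : (𝓞 K)ˣ := ηu * v0 * v1⁻¹ with hη
  have hE : y1 ^ p + ε * y2 ^ p = η * (hζ.toInteger - 1) ^ (p * (m - 1)) * w0 ^ p := by
    have h1 : ((v1⁻¹ : (𝓞 K)ˣ) : 𝓞 K) * v1 = 1 := by
      rw [← Units.val_mul, inv_mul_cancel, Units.val_one]
    have := congrArg (fun t => ((v1⁻¹ : (𝓞 K)ˣ) : 𝓞 K) * t) hrel
    beta_reduce at this
    rw [hε, hη]
    push_cast
    rw [hζu', hηu']
    linear_combination this - (y1 ^ p) * h1
  -- `p ∣ π^(p (m-1))`
  have hpdvd : (p : 𝓞 K) ∣ (hζ.toInteger - 1) ^ (p * (m - 1)) := by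
    have h1 := (IsCyclotomicExtension.Rat.associated_zeta_sub_one_pow_prime p hζ).symm.dvd
    refine h1.trans (pow_dvd_pow _ ?_)
    calc p - 1 ≤ p * 1 := by omega
      _ ≤ p * (m - 1) := Nat.mul_le_mul_left _ (by omega)
  obtain ⟨ε1, hε1⟩ := unit_eq_pow_of_dvd hζ hKL hy2 (y1 := y1) (ε := ε) (by
    rw [hE]
    exact dvd_mul_of_dvd_left (dvd_mul_of_dvd_right hpdvd _) _)
  refine ⟨y1, ε1 * y2, w0, η, hy1, ?_, hw0, ?_, ?_⟩
  · intro h
    exact hy2 ((IsUnit.dvd_mul_left ε1.isUnit).mp h)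
  · exact (isCoprime_mul_unit_left_right ε1.isUnit _ _).mpr hcop
  · rw [mul_pow, ← Units.val_pow_eq_pow_val, ← hε1, hE]




/-- The descent step. -/
lemma descent [IsPrincipalIdealRing (𝓞 K)] (hp2 : p ≠ 2) (hKL : KummerLemma p K)
    {a b c : 𝓞 K} {u : (𝓞 K)ˣ} {m : ℕ} (hm : 1 ≤ m)
    (hb : ¬ hζ.toInteger - 1 ∣ b) (hc : ¬ hζ.toInteger - 1 ∣ c) (hab : IsCoprime a b)
    (H : a ^ p + b ^ p = u * (hζ.toInteger - 1) ^ (p * m) * c ^ p) :
    2 ≤ m ∧ ∃ (a' b' c' : 𝓞 K) (u' : (𝓞 K)ˣ), ¬ hζ.toInteger - 1 ∣ a' ∧ ¬ hζ.toInteger - 1 ∣ b' ∧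
      ¬ hζ.toInteger - 1 ∣ c' ∧ IsCoprime a' b' ∧
      a' ^ p + b' ^ p = u' * (hζ.toInteger - 1) ^ (p * (m - 1)) * c' ^ p := by
  obtain ⟨i, hi⟩ := exists_pi_sq_dvd hζ (pi_dvd_factor hζ hp2 hm H) hb
  have hu : IsUnit (hζ.toInteger ^ i) := (zeta_isUnit hζ).pow i
  refine descent_of_sq_dvd hζ hp2 hKL hm (b := hζ.toInteger ^ i * b) (u := u) ?_ hc ?_ ?_ hi
  · intro h
    exact hb ((IsUnit.dvd_mul_left hu).mp h)
  · exact (isCoprime_mul_unit_left_right hu _ _).mpr hab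
  · rw [mul_pow, ← pow_mul, mul_comm i p, pow_mul, zeta_pow_p hζ, one_pow, one_mul, H]

/-- The generalised Case II equation has no solution. -/
theorem caseII_gen [IsPrincipalIdealRing (𝓞 K)] (hp2 : p ≠ 2) (hKL : KummerLemma p K) :
    ∀ (m : ℕ), 1 ≤ m → ∀ (a b c : 𝓞 K) (u : (𝓞 K)ˣ), ¬ hζ.toInteger - 1 ∣ b →
      ¬ hζ.toInteger - 1 ∣ c → IsCoprime a b →
      a ^ p + b ^ p ≠ u * (hζ.toInteger - 1) ^ (p * m) * c ^ p := by
  intro m
  induction m with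
  | zero => intro h; omega
  | succ m ih =>
    intro _ a b c u hb hc hab H
    obtain ⟨hm2, a', b', c', u', -, hb', hc', hab', H'⟩ :=
      descent hζ hp2 hKL (Nat.succ_pos m) hb hc hab H
    rw [Nat.succ_sub_one] at H'
    exact ih (by omega) a' b' c' u' hb' hc' hab' H'

/-- Case II of Fermat's Last Theorem. -/
theorem caseII [IsPrincipalIdealRing (𝓞 K)] (hp2 : p ≠ 2) (hKL : KummerLemma p K)
    {x y z : ℤ} (hxy : IsCoprime x y) (h : x ^ p + y ^ p = z ^ p) (hy : ¬ (p : ℤ) ∣ y)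
    (hz : (p : ℤ) ∣ z) (hz0 : z ≠ 0) : False := by
  have hpprime : Prime (p : ℤ) := Nat.prime_iff_prime_int.mp hp.out
  have hfin : FiniteMultiplicity (p : ℤ) z :=
    FiniteMultiplicity.of_not_isUnit hpprime.not_isUnit hz0
  obtain ⟨z', hz', hpz'⟩ := hfin.exists_eq_pow_mul_and_not_dvd
  set k := multiplicity (p : ℤ) z with hk
  have hk1 : 1 ≤ k := by
    rw [hk]
    exact hfin.le_multiplicity_of_pow_dvd (by simpa using hz)
  obtain ⟨v, hv⟩ := IsCyclotomicExtension.Rat.associated_zeta_sub_one_pow_prime p hζ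
  -- `p = π^(p-1) * v`
  have hp1 : 1 ≤ p - 1 := by have := hp.out.two_le; omega
  have hpos : 1 ≤ (p - 1) * k := Nat.mul_pos hp1 hk1
  refine caseII_gen hζ hp2 hKL ((p - 1) * k) hpos
    (x : 𝓞 K) (y : 𝓞 K) (z' : 𝓞 K) (v ^ (k * p)) ?_ ?_ hxy.intCast ?_
  · rwa [pi_dvd_intCast_iff hζ]
  · rwa [pi_dvd_intCast_iff hζ]
  · have := congrArg (Int.cast : ℤ → 𝓞 K) h
    push_cast at this
    rw [this, hz']
    push_cast
    rw [← hv]
    ring


end Fermat.Agent.Lib.FltRegular
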