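import Fermat.Agent.Lib.FltRegular.Main
import Fermat.Prelude.Def_FLTPrelim_FreyPackage

/-!
# No Frey package exists for an exponent for which Fermat's Last Theorem is known
-/

set_option autoImplicit false

open NumberField

namespace Fermat.Agent.Lib.FltRegular

/-- A Frey package contains a counterexample to Fermat's Last Theorem for its exponent. -/
theorem freyPackage_false_of_flt (P : FreyPackage) (h : FermatLastTheoremFor P.p) : False := by
  rw [fermatLastTheoremFor_iff_int] at h
  exact h P.a P.b P.c P.ha0 P.hb0 P.hc0 P.hFLT

/-- No Frey package has exponent `p` as soon as `ℤ[ζ_p]` is a PID and Kummer's lemma holds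
for `p`. -/
theorem freyPackage_false_of_pid_of_kummer (P : FreyPackage) {p : ℕ} (hPp : P.p = p)
    (K : Type*) [Field K] [NumberField K] [IsCyclotomicExtension {p} ℚ K]
    (hpid : IsPrincipalIdealRing (𝓞 K)) (hKL : KummerLemma p K) : False := by
  subst hPp
  have : Fact P.p.Prime := ⟨P.pp⟩
  exact freyPackage_false_of_flt P (flt_of_pid_of_kummer P.hp5 K hpid hKL)

/-- The instance `IsCyclotomicExtension {p} ℚ (CyclotomicField p ℚ)` with respect to the
`ℚ`-algebra structure coming from `DivisionRing.toRatAlgebra` (the one `NumberField` uses). -/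
theorem cyclotomicField_isCyclotomicExtension (p : ℕ) [NeZero p] :
    IsCyclotomicExtension {p} ℚ (CyclotomicField p ℚ) :=
  CyclotomicField.isCyclotomicExtension _ _

end Fermat.Agent.Lib.FltRegular
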