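import Fermat.Agent.Lib.FltRegular.CaseII

/-!
# Fermat's Last Theorem for a prime `p ≥ 5` such that `ℤ[ζ_p]` is a PID and Kummer's lemma holds
-/

set_option autoImplicit false
set_option linter.unusedSectionVars false

open NumberField IsPrimitiveRoot

namespace Fermat.Agent.Lib.FltRegular

lemma isCoprime_of_pow_add_pow {n : ℕ} (hn : 0 < n) {a b c : ℤ} (hab : IsCoprime a b)
    (h : a ^ n + b ^ n = c ^ n) : IsCoprime c b := by
  have h1 : IsCoprime (a ^ n) (b ^ n) := hab.pow
  have h2 : IsCoprime (a ^ n + b ^ n) (b ^ n) := by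
    simpa using h1.add_mul_left_left 1
  rw [h] at h2
  exact (IsCoprime.pow_iff hn hn).mp h2

/-- Fermat's Last Theorem for a prime exponent `p ≥ 5` such that the ring of integers of the `p`-th
cyclotomic field is a PID and Kummer's lemma holds. -/
theorem flt_of_pid_of_kummer {p : ℕ} [hp : Fact p.Prime] (hp5 : 5 ≤ p) (K : Type*) [Field K]
    [NumberField K] [IsCyclotomicExtension {p} ℚ K] (hpid : IsPrincipalIdealRing (𝓞 K))
    (hKL : KummerLemma p K) : FermatLastTheoremFor p := by
  have hζ := IsCyclotomicExtension.zeta_spec p ℚ K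
  have hodd : Odd p := hp.out.odd_of_ne_two (by omega)
  have hp2 : p ≠ 2 := by omega
  have hppos : 0 < p := hp.out.pos
  have hpprime : Prime (p : ℤ) := Nat.prime_iff_prime_int.mp hp.out
  rw [fermatLastTheoremFor_iff_int]
  refine fermatLastTheoremWith_of_fermatLastTheoremWith_coprime (fun a b c ha hb hc hgcd hF => ?_)
  have hab : IsCoprime a b := by
    refine isCoprime_of_gcd_eq_one_of_FLT (n := p) (c := -c) ?_ ?_
    · rw [← hgcd]
      simp only [Finset.gcd_insert, Finset.gcd_singleton, id_eq, ← Int.abs_eq_normalize, abs_neg]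
    · rw [hodd.neg_pow, hF]; ring
  have hcb : IsCoprime c b := isCoprime_of_pow_add_pow hppos hab hF
  have hca : IsCoprime c a := isCoprime_of_pow_add_pow hppos hab.symm (by rw [add_comm]; exact hF)
  by_cases hpc : (p : ℤ) ∣ c
  · -- Case II with `p ∣ c`
    have hpb : ¬ (p : ℤ) ∣ b := fun h => hpprime.not_isUnit (hcb.isUnit_of_dvd' hpc h)
    exact caseII hζ hp2 hKL hab hF hpb hpc hc
  by_cases hpa : (p : ℤ) ∣ a
  · -- Case II with `p ∣ a`: `c^p + (-b)^p = a^p`
    have hpb : ¬ (p : ℤ) ∣ b := fun h => hpprime.not_isUnit (hab.isUnit_of_dvd' hpa h)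
    refine caseII hζ hp2 hKL (x := c) (y := -b) (z := a) hcb.neg_right ?_ ?_ hpa ha
    · rw [hodd.neg_pow, ← hF]; ring
    · rwa [dvd_neg]
  by_cases hpb : (p : ℤ) ∣ b
  · -- Case II with `p ∣ b`: `c^p + (-a)^p = b^p`
    refine caseII hζ hp2 hKL (x := c) (y := -a) (z := b) hca.neg_right ?_ ?_ hpb hb
    · rw [hodd.neg_pow, ← hF]; ring
    · rwa [dvd_neg]
  · -- Case I
    have := hpid
    exact caseI hζ hp5 hab hF hpa hpb hpc

end Fermat.Agent.Lib.FltRegular
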