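/-
The ring of integers of `ℚ(ζ₁₁)` is a principal ideal domain.
-/
import Mathlib

set_option autoImplicit false

namespace Fermat.Agent.Lib.FltRegular

open NumberField Polynomial InfinitePlace Nat Real cyclotomic Module Ideal
open RingOfIntegers NumberField.Ideal IsCyclotomicExtension IsCyclotomicExtension.Rat

universe u

/-- The Minkowski bound of `ℚ(ζ₁₁)` is `< 60`. -/
theorem minkowski_eleven_lt (K : Type u) [Field K] [NumberField K]
    [IsCyclotomicExtension {11} ℚ K] :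
    (4 / π) ^ nrComplexPlaces K *
      ((finrank ℚ K)! / (finrank ℚ K) ^ (finrank ℚ K) * √|discr K|) < 60 := by
  have h11 : Fact (Nat.Prime 11) := ⟨by norm_num⟩
  rw [IsCyclotomicExtension.Rat.discr_prime 11 K, IsCyclotomicExtension.finrank (n := 11) K
    (irreducible_rat (by simp)), IsCyclotomicExtension.Rat.nrComplexPlaces_eq_totient_div_two 11,
    totient_prime h11.out]
  have hfact : ((11 - 1)! : ℝ) = 3628800 := by
    norm_num [Nat.factorial]
  have hsqrt : √(2357947691 : ℝ) < 48560 := by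
    rw [Real.sqrt_lt' (by norm_num)]
    norm_num
  have hpi : (4 / π) ^ 5 < (4 / 3.14 : ℝ) ^ 5 := by
    gcongr
    exact pi_gt_d2
  have hpos : (0 : ℝ) < (4 / π) ^ 5 := by positivity
  rw [hfact]
  push_cast
  rw [abs_neg, abs_of_pos (by norm_num : (0 : ℝ) < 2357947691)]
  have hs0 : (0 : ℝ) ≤ √2357947691 := Real.sqrt_nonneg _
  calc (4 / π) ^ 5 * (3628800 / 10 ^ 10 * √2357947691)
      ≤ (4 / 3.14 : ℝ) ^ 5 * (3628800 / 10 ^ 10 * √2357947691) := by gcongr
    _ < (4 / 3.14 : ℝ) ^ 5 * (3628800 / 10 ^ 10 * 48560) := by gcongr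
    _ < 60 := by norm_num

theorem orderOf_2_zmod_eleven : orderOf ((2 : ℕ) : ZMod 11) = 10 := by
  rw [orderOf_eq_iff (by norm_num)]
  decide

theorem orderOf_3_zmod_eleven : orderOf ((3 : ℕ) : ZMod 11) = 5 := by
  rw [orderOf_eq_iff (by norm_num)]
  decide

theorem orderOf_5_zmod_eleven : orderOf ((5 : ℕ) : ZMod 11) = 5 := by
  rw [orderOf_eq_iff (by norm_num)]
  decide

theorem orderOf_7_zmod_eleven : orderOf ((7 : ℕ) : ZMod 11) = 10 := by
  rw [orderOf_eq_iff (by norm_num)]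
  decide

theorem orderOf_13_zmod_eleven : orderOf ((13 : ℕ) : ZMod 11) = 10 := by
  rw [orderOf_eq_iff (by norm_num)]
  decide

theorem orderOf_17_zmod_eleven : orderOf ((17 : ℕ) : ZMod 11) = 10 := by
  rw [orderOf_eq_iff (by norm_num)]
  decide

theorem orderOf_19_zmod_eleven : orderOf ((19 : ℕ) : ZMod 11) = 10 := by
  rw [orderOf_eq_iff (by norm_num)]
  decide

theorem orderOf_29_zmod_eleven : orderOf ((29 : ℕ) : ZMod 11) = 10 := by
  rw [orderOf_eq_iff (by norm_num)]
  decide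

theorem orderOf_31_zmod_eleven : orderOf ((31 : ℕ) : ZMod 11) = 5 := by
  rw [orderOf_eq_iff (by norm_num)]
  decide

theorem orderOf_37_zmod_eleven : orderOf ((37 : ℕ) : ZMod 11) = 5 := by
  rw [orderOf_eq_iff (by norm_num)]
  decide

theorem orderOf_41_zmod_eleven : orderOf ((41 : ℕ) : ZMod 11) = 10 := by
  rw [orderOf_eq_iff (by norm_num)]
  decide

theorem orderOf_43_zmod_eleven : orderOf ((43 : ℕ) : ZMod 11) = 2 := by
  rw [orderOf_eq_iff (by norm_num)]
  decide

theorem orderOf_47_zmod_eleven : orderOf ((47 : ℕ) : ZMod 11) = 5 := by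
  rw [orderOf_eq_iff (by norm_num)]
  decide

theorem orderOf_53_zmod_eleven : orderOf ((53 : ℕ) : ZMod 11) = 5 := by
  rw [orderOf_eq_iff (by norm_num)]
  decide

theorem orderOf_59_zmod_eleven : orderOf ((59 : ℕ) : ZMod 11) = 5 := by
  rw [orderOf_eq_iff (by norm_num)]
  decide

theorem isRoot_cyclotomic_eleven_zmod : (cyclotomic 11 (ZMod 23)).IsRoot 4 := by
  have h11 : Nat.Prime 11 := by norm_num
  rw [IsRoot.def, cyclotomic_prime (ZMod 23) 11 (hp := ⟨h11⟩), eval_finsetSum]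
  simp only [eval_pow, eval_X]
  decide

/-- There is a principal prime ideal above `23` in `ℚ(ζ₁₁)`. -/
theorem exists_isPrincipal_primesOver_twentyThree (K : Type u) [Field K] [NumberField K]
    [hK : IsCyclotomicExtension {11} ℚ K] :
    ∃ P ∈ primesOver (span {((23 : ℕ) : ℤ)}) (𝓞 K), Submodule.IsPrincipal P := by
  have h23 : Fact (Nat.Prime 23) := ⟨by norm_num⟩
  have hζ := zeta_spec 11 ℚ K
  obtain ⟨θ, hθdef⟩ : ∃ θ : 𝓞 K, θ = hζ.toInteger := ⟨_, rfl⟩
  have hθ : IsPrimitiveRoot θ 11 := hθdef ▸ hζ.toInteger_isPrimitiveRoot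
  have hΦ : ∑ i ∈ Finset.range 11, θ ^ i = 0 := hθ.geom_sum_eq_zero (by norm_num)
  have h₁ : ¬ 23 ∣ exponent θ := by
    rw [hθdef, exponent_eq_one_iff.mpr <| adjoin_singleton_eq_top (zeta_spec 11 ℚ K)]
    norm_num
  have hmin : map (Int.castRingHom (ZMod 23)) (minpoly ℤ θ) = cyclotomic 11 (ZMod 23) := by
    rw [← map_cyclotomic_int, cyclotomic_eq_minpoly hζ (by norm_num),
      ← hζ.coe_toInteger, ← RingOfIntegers.minpoly_coe θ, hθdef]
    rfl
  have hQ : (X - C 4 : ℤ[X]).map (Int.castRingHom (ZMod 23)) ∈ monicFactorsMod θ 23 := by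
    rw [Multiset.mem_toFinset, Polynomial.mem_normalizedFactors_iff
      (map_monic_ne_zero (minpoly.monic θ.isIntegral))]
    have hmap : (X - C 4 : ℤ[X]).map (Int.castRingHom (ZMod 23)) = X - C 4 := by
      rw [Polynomial.map_sub, Polynomial.map_X, Polynomial.map_C]
      rfl
    rw [hmap, hmin]
    exact ⟨irreducible_X_sub_C 4, monic_X_sub_C 4,
      dvd_iff_isRoot.2 isRoot_cyclotomic_eleven_zmod⟩
  have hP := primesOverSpanEquivMonicFactorsMod_symm_apply_eq_span h₁ hQ
  refine ⟨_, ((primesOverSpanEquivMonicFactorsMod h₁).symm ⟨_, hQ⟩).2, ?_⟩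
  rw [hP]
  have haeval : aeval θ (X - C 4 : ℤ[X]) = θ - 4 := by
    rw [map_sub, aeval_X, aeval_C, eq_intCast]
    norm_num
  rw [haeval]
  refine ⟨⟨1 + θ + θ ^ 3, ?_⟩⟩
  simp only [Finset.sum_range_succ, Finset.sum_range_zero, zero_add, pow_zero, pow_one] at hΦ
  apply le_antisymm
  · rw [Ideal.span_le]
    rintro x (rfl | rfl)
    · change _ ∈ Ideal.span {1 + θ + θ ^ 3}
      rw [Ideal.mem_span_singleton]
      refine ⟨-2 - 14 * θ - 17 * θ ^ 2 - 12 * θ ^ 3 - 5 * θ ^ 4 - 9 * θ ^ 5 - 10 * θ ^ 6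
        - 16 * θ ^ 7 - 6 * θ ^ 8 - 15 * θ ^ 9, ?_⟩
      push_cast
      linear_combination (25 - 9 * θ + 15 * θ ^ 2) * hΦ
    · change _ ∈ Ideal.span {1 + θ + θ ^ 3}
      rw [Ideal.mem_span_singleton]
      refine ⟨1 + 3 * θ + 3 * θ ^ 2 + 2 * θ ^ 3 + θ ^ 4 + 2 * θ ^ 5 + 2 * θ ^ 6
        + 3 * θ ^ 7 + θ ^ 8 + 3 * θ ^ 9, ?_⟩
      linear_combination (-5 + 2 * θ - 3 * θ ^ 2) * hΦ
  · change Ideal.span {1 + θ + θ ^ 3} ≤ _
    rw [Ideal.span_singleton_le_iff_mem, Ideal.mem_span_pair]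
    refine ⟨3, θ ^ 2 + 4 * θ + 17, ?_⟩
    push_cast
    ring


/-- If `IsCyclotomicExtension {11} ℚ K` then `𝓞 K` is a principal ideal domain. -/
theorem eleven_pid (K : Type u) [Field K] [NumberField K] [hK : IsCyclotomicExtension {11} ℚ K] :
    IsPrincipalIdealRing (𝓞 K) := by
  have h11 : Fact (Nat.Prime 11) := ⟨by norm_num⟩
  have hgal : IsGalois ℚ K := IsCyclotomicExtension.isGalois {11} ℚ K
  apply RingOfIntegers.isPrincipalIdealRing_of_isPrincipal_of_lt_or_isPrincipal_of_mem_primesOver_of_mem_Icc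
  have hM : ⌊(4 / π) ^ nrComplexPlaces K *
      ((finrank ℚ K)! / (finrank ℚ K) ^ (finrank ℚ K) * √|discr K|)⌋₊ < 60 :=
    (Nat.floor_lt (by positivity)).2 (minkowski_eleven_lt K)
  intro p hp hpp
  have hp59 : p ≤ 59 := by
    have := (Finset.mem_Icc.1 hp).2
    omega
  by_cases hp11 : p = 11
  · -- the ramified prime
    subst hp11
    have hζ := zeta_spec 11 ℚ K
    have hK' : IsCyclotomicExtension {11 ^ (0 + 1)} ℚ K := by simpa using hK
    have hζ' : IsPrimitiveRoot (zeta 11 ℚ K) (11 ^ (0 + 1)) := by simp [hζ]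
    exact ⟨span {hζ'.toInteger - 1},
      ⟨isPrime_span_zeta_sub_one 11 0 hζ', liesOver_span_zeta_sub_one 11 0 hζ'⟩,
      Or.inr ⟨⟨_, rfl⟩⟩⟩
  by_cases hp23 : p = 23
  · subst hp23
    obtain ⟨P, hP, hprinc⟩ := exists_isPrincipal_primesOver_twentyThree K
    exact ⟨P, hP, Or.inr hprinc⟩
  have hfact : Fact (Nat.Prime p) := ⟨hpp⟩
  obtain ⟨⟨P, hP1, hP2⟩⟩ := (span {(p : ℤ)}).nonempty_primesOver (S := 𝓞 K)
  refine ⟨P, ⟨hP1, hP2⟩, Or.inl ?_⟩
  have hpn : ¬ p ∣ 11 := by
    intro hd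
    exact hp11 ((Nat.prime_dvd_prime_iff_eq hpp (by norm_num)).1 hd)
  rw [IsCyclotomicExtension.Rat.inertiaDeg_eq_of_not_dvd p K P hpn]
  refine lt_of_lt_of_le hM ?_
  have h2 : 2 ≤ p := hpp.two_le
  interval_cases p
  · rw [orderOf_2_zmod_eleven]; norm_num
  · rw [orderOf_3_zmod_eleven]; norm_num
  · exact absurd hpp (by norm_num)
  · rw [orderOf_5_zmod_eleven]; norm_num
  · exact absurd hpp (by norm_num)
  · rw [orderOf_7_zmod_eleven]; norm_num
  · exact absurd hpp (by norm_num)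
  · exact absurd hpp (by norm_num)
  · exact absurd hpp (by norm_num)
  · exact absurd rfl ‹_›
  · exact absurd hpp (by norm_num)
  · rw [orderOf_13_zmod_eleven]; norm_num
  · exact absurd hpp (by norm_num)
  · exact absurd hpp (by norm_num)
  · exact absurd hpp (by norm_num)
  · rw [orderOf_17_zmod_eleven]; norm_num
  · exact absurd hpp (by norm_num)
  · rw [orderOf_19_zmod_eleven]; norm_num
  · exact absurd hpp (by norm_num)
  · exact absurd hpp (by norm_num)
  · exact absurd hpp (by norm_num)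
  · exact absurd rfl ‹_›
  · exact absurd hpp (by norm_num)
  · exact absurd hpp (by norm_num)
  · exact absurd hpp (by norm_num)
  · exact absurd hpp (by norm_num)
  · exact absurd hpp (by norm_num)
  · rw [orderOf_29_zmod_eleven]; norm_num
  · exact absurd hpp (by norm_num)
  · rw [orderOf_31_zmod_eleven]; norm_num
  · exact absurd hpp (by norm_num)
  · exact absurd hpp (by norm_num)
  · exact absurd hpp (by norm_num)
  · exact absurd hpp (by norm_num)
  · exact absurd hpp (by norm_num)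
  · rw [orderOf_37_zmod_eleven]; norm_num
  · exact absurd hpp (by norm_num)
  · exact absurd hpp (by norm_num)
  · exact absurd hpp (by norm_num)
  · rw [orderOf_41_zmod_eleven]; norm_num
  · exact absurd hpp (by norm_num)
  · rw [orderOf_43_zmod_eleven]; norm_num
  · exact absurd hpp (by norm_num)
  · exact absurd hpp (by norm_num)
  · exact absurd hpp (by norm_num)
  · rw [orderOf_47_zmod_eleven]; norm_num
  · exact absurd hpp (by norm_num)
  · exact absurd hpp (by norm_num)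
  · exact absurd hpp (by norm_num)
  · exact absurd hpp (by norm_num)
  · exact absurd hpp (by norm_num)
  · rw [orderOf_53_zmod_eleven]; norm_num
  · exact absurd hpp (by norm_num)
  · exact absurd hpp (by norm_num)
  · exact absurd hpp (by norm_num)
  · exact absurd hpp (by norm_num)
  · exact absurd hpp (by norm_num)
  · rw [orderOf_59_zmod_eleven]; norm_num

end Fermat.Agent.Lib.FltRegular
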