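import Mathlib

set_option autoImplicit false

namespace Fermat.Agent.Lib.FltRegular.PID13

open Polynomial

/-- The polynomial whose value at `ζ₁₃` generates a prime above `53`. -/
noncomputable def gen53 : ℤ[X] := 1 + X + X ^ 3

theorem prod_gen53 {K : Type*} [Field K] (ζ : K)
    (hΦ : 1 + ζ + ζ ^ 2 + ζ ^ 3 + ζ ^ 4 + ζ ^ 5 + ζ ^ 6 + ζ ^ 7 + ζ ^ 8 + ζ ^ 9 + ζ ^ 10 + ζ ^ 11 + ζ ^ 12 = 0) :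
    (1 + ζ ^ 1 + (ζ ^ 1) ^ 3) * (1 + ζ ^ 2 + (ζ ^ 2) ^ 3) * (1 + ζ ^ 3 + (ζ ^ 3) ^ 3) * (1 + ζ ^ 4 + (ζ ^ 4) ^ 3) * (1 + ζ ^ 5 + (ζ ^ 5) ^ 3) * (1 + ζ ^ 6 + (ζ ^ 6) ^ 3) * (1 + ζ ^ 7 + (ζ ^ 7) ^ 3) * (1 + ζ ^ 8 + (ζ ^ 8) ^ 3) * (1 + ζ ^ 9 + (ζ ^ 9) ^ 3) * (1 + ζ ^ 10 + (ζ ^ 10) ^ 3) * (1 + ζ ^ 11 + (ζ ^ 11) ^ 3) * (1 + ζ ^ 12 + (ζ ^ 12) ^ 3) = 53 := by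
  linear_combination ((-52) + (53) * ζ + (2) * ζ ^ 3 + (-1) * ζ ^ 4 + (2) * ζ ^ 5 + (2) * ζ ^ 6 + (1) * ζ ^ 7 + (1) * ζ ^ 8 + (5) * ζ ^ 9 + (3) * ζ ^ 10 + (2) * ζ ^ 11 + (8) * ζ ^ 12 + (-50) * ζ ^ 13 + (61) * ζ ^ 14 + (10) * ζ ^ 15 + (8) * ζ ^ 16 + (7) * ζ ^ 17 + (20) * ζ ^ 18 + (7) * ζ ^ 19 + (18) * ζ ^ 20 + (24) * ζ ^ 21 + (17) * ζ ^ 22 + (20) * ζ ^ 23 + (33) * ζ ^ 24 + (23) * ζ ^ 25 + (-24) * ζ ^ 26 + (101) * ζ ^ 27 + (33) * ζ ^ 28 + (38) * ζ ^ 29 + (55) * ζ ^ 30 + (49) * ζ ^ 31 + (43) * ζ ^ 32 + (84) * ζ ^ 33 + (46) * ζ ^ 34 + (74) * ζ ^ 35 + (91) * ζ ^ 36 + (71) * ζ ^ 37 + (74) * ζ ^ 38 + (72) * ζ ^ 39 + (134) * ζ ^ 40 + (101) * ζ ^ 41 + (136) * ζ ^ 42 + (102) * ζ ^ 43 + (123) * ζ ^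 44 + (173) * ζ ^ 45 + (117) * ζ ^ 46 + (143) * ζ ^ 47 + (205) * ζ ^ 48 + (135) * ζ ^ 49 + (167) * ζ ^ 50 + (225) * ζ ^ 51 + (124) * ζ ^ 52 + (228) * ζ ^ 53 + (282) * ζ ^ 54 + (186) * ζ ^ 55 + (221) * ζ ^ 56 + (298) * ζ ^ 57 + (223) * ζ ^ 58 + (228) * ζ ^ 59 + (342) * ζ ^ 60 + (245) * ζ ^ 61 + (262) * ζ ^ 62 + (376) * ζ ^ 63 + (266) * ζ ^ 64 + (244) * ζ ^ 65 + (485) * ζ ^ 66 + (276) * ζ ^ 67 + (327) * ζ ^ 68 + (436) * ζ ^ 69 + (322) * ζ ^ 70 + (335) * ζ ^ 71 + (485) * ζ ^ 72 + (337) * ζ ^ 73 + (369) * ζ ^ 74 + (505) * ζ ^ 75 + (353) * ζ ^ 76 + (402) * ζ ^ 77 + (521) * ζ ^ 78 + (393) * ζ ^ 79 + (413) * ζ ^ 80 + (569) * ζ ^ 81 + (383) * ζ ^ 82 + (417) * ζ ^ 83 + (605) * ζ ^ 84 + (390) * ζ ^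 85 + (430) * ζ ^ 86 + (616) * ζ ^ 87 + (406) * ζ ^ 88 + (436) * ζ ^ 89 + (646) * ζ ^ 90 + (414) * ζ ^ 91 + (433) * ζ ^ 92 + (645) * ζ ^ 93 + (416) * ζ ^ 94 + (439) * ζ ^ 95 + (625) * ζ ^ 96 + (455) * ζ ^ 97 + (400) * ζ ^ 98 + (678) * ζ ^ 99 + (392) * ζ ^ 100 + (435) * ζ ^ 101 + (627) * ζ ^ 102 + (428) * ζ ^ 103 + (408) * ζ ^ 104 + (642) * ζ ^ 105 + (378) * ζ ^ 106 + (425) * ζ ^ 107 + (587) * ζ ^ 108 + (401) * ζ ^ 109 + (383) * ζ ^ 110 + (595) * ζ ^ 111 + (377) * ζ ^ 112 + (382) * ζ ^ 113 + (543) * ζ ^ 114 + (386) * ζ ^ 115 + (317) * ζ ^ 116 + (566) * ζ ^ 117 + (328) * ζ ^ 118 + (341) * ζ ^ 119 + (507) * ζ ^ 120 + (324) * ζ ^ 121 + (284) * ζ ^ 122 + (507) * ζ ^ 123 + (287) * ζ ^ 124 + (287)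 * ζ ^ 125 + (454) * ζ ^ 126 + (267) * ζ ^ 127 + (253) * ζ ^ 128 + (425) * ζ ^ 129 + (244) * ζ ^ 130 + (237) * ζ ^ 131 + (390) * ζ ^ 132 + (236) * ζ ^ 133 + (198) * ζ ^ 134 + (350) * ζ ^ 135 + (221) * ζ ^ 136 + (174) * ζ ^ 137 + (336) * ζ ^ 138 + (179) * ζ ^ 139 + (163) * ζ ^ 140 + (288) * ζ ^ 141 + (175) * ζ ^ 142 + (124) * ζ ^ 143 + (275) * ζ ^ 144 + (131) * ζ ^ 145 + (143) * ζ ^ 146 + (211) * ζ ^ 147 + (144) * ζ ^ 148 + (79) * ζ ^ 149 + (232) * ζ ^ 150 + (92) * ζ ^ 151 + (103) * ζ ^ 152 + (162) * ζ ^ 153 + (117) * ζ ^ 154 + (50) * ζ ^ 155 + (178) * ζ ^ 156 + (56) * ζ ^ 157 + (81) * ζ ^ 158 + (115) * ζ ^ 159 + (91) * ζ ^ 160 + (25) * ζ ^ 161 + (141) * ζ ^ 162 + (31) * ζ ^ 163 + (61) * ζ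 ^ 164 + (74) * ζ ^ 165 + (71) * ζ ^ 166 + (5) * ζ ^ 167 + (109) * ζ ^ 168 + (14) * ζ ^ 169 + (42) * ζ ^ 170 + (49) * ζ ^ 171 + (54) * ζ ^ 172 + (-8) * ζ ^ 173 + (83) * ζ ^ 174 + (6) * ζ ^ 175 + (30) * ζ ^ 176 + (29) * ζ ^ 177 + (36) * ζ ^ 178 + (-10) * ζ ^ 179 + (56) * ζ ^ 180 + (-2) * ζ ^ 181 + (22) * ζ ^ 182 + (14) * ζ ^ 183 + (28) * ζ ^ 184 + (-10) * ζ ^ 185 + (36) * ζ ^ 186 + (-2) * ζ ^ 187 + (15) * ζ ^ 188 + (8) * ζ ^ 189 + (18) * ζ ^ 190 + (-13) * ζ ^ 191 + (27) * ζ ^ 192 + (-5) * ζ ^ 193 + (8) * ζ ^ 194 + (4) * ζ ^ 195 + (11) * ζ ^ 196 + (-8) * ζ ^ 197 + (17) * ζ ^ 198 + (-4) * ζ ^ 199 + (4) * ζ ^ 200 + (2) * ζ ^ 201 + (7) * ζ ^ 202 + (-5) * ζ ^ 203 + (8) * ζ ^ 204 + (-3) * ζ ^ 205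 + (3) * ζ ^ 206 + (4) * ζ ^ 208 + (-3) * ζ ^ 209 + (5) * ζ ^ 210 + (-1) * ζ ^ 211 + (2) * ζ ^ 214 + (-2) * ζ ^ 215 + (3) * ζ ^ 216 + (-1) * ζ ^ 217 + (1) * ζ ^ 220 + (-1) * ζ ^ 221 + (1) * ζ ^ 222) * hΦ


/-- The polynomial whose value at `ζ₁₃` generates a prime above `3`. -/
noncomputable def gen3 : ℤ[X] := 1 + X - X ^ 3

theorem prod_gen3 {K : Type*} [Field K] (ζ : K)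
    (hΦ : 1 + ζ + ζ ^ 2 + ζ ^ 3 + ζ ^ 4 + ζ ^ 5 + ζ ^ 6 + ζ ^ 7 + ζ ^ 8 + ζ ^ 9 + ζ ^ 10 + ζ ^ 11 + ζ ^ 12 = 0) :
    (1 + ζ ^ 1 - (ζ ^ 1) ^ 3) * (1 + ζ ^ 2 - (ζ ^ 2) ^ 3) * (1 + ζ ^ 3 - (ζ ^ 3) ^ 3) * (1 + ζ ^ 4 - (ζ ^ 4) ^ 3) * (1 + ζ ^ 5 - (ζ ^ 5) ^ 3) * (1 + ζ ^ 6 - (ζ ^ 6) ^ 3) * (1 + ζ ^ 7 - (ζ ^ 7) ^ 3) * (1 + ζ ^ 8 - (ζ ^ 8) ^ 3) * (1 + ζ ^ 9 - (ζ ^ 9) ^ 3) * (1 + ζ ^ 10 - (ζ ^ 10) ^ 3) * (1 + ζ ^ 11 - (ζ ^ 11) ^ 3) * (1 + ζ ^ 12 - (ζ ^ 12) ^ 3) = 27 := by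
  linear_combination ((-26) + (27) * ζ + (1) * ζ ^ 4 + (1) * ζ ^ 7 + (1) * ζ ^ 8 + (1) * ζ ^ 9 + (-1) * ζ ^ 10 + (2) * ζ ^ 11 + (2) * ζ ^ 12 + (-26) * ζ ^ 13 + (27) * ζ ^ 14 + (2) * ζ ^ 16 + (1) * ζ ^ 17 + (1) * ζ ^ 19 + (2) * ζ ^ 20 + (-1) * ζ ^ 22 + (1) * ζ ^ 24 + (1) * ζ ^ 25 + (-30) * ζ ^ 26 + (25) * ζ ^ 27 + (1) * ζ ^ 28 + (-2) * ζ ^ 29 + (-3) * ζ ^ 30 + (-3) * ζ ^ 31 + (-1) * ζ ^ 32 + (-4) * ζ ^ 33 + (-6) * ζ ^ 34 + (-2) * ζ ^ 35 + (-1) * ζ ^ 36 + (-5) * ζ ^ 37 + (-6) * ζ ^ 38 + (-32) * ζ ^ 39 + (26) * ζ ^ 40 + (-5) * ζ ^ 41 + (-6) * ζ ^ 42 + (-4) * ζ ^ 43 + (-1) * ζ ^ 44 + (-1) * ζ ^ 45 + (-7) * ζ ^ 46 + (-1) * ζ ^ 47 + (5) * ζ ^ 48 + (-1) * ζ ^ 49 + (-5) * ζ ^ 50 + (3) * ζ ^ 51 +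 (-24) * ζ ^ 52 + (32) * ζ ^ 53 + (6) * ζ ^ 55 + (11) * ζ ^ 56 + (6) * ζ ^ 57 + (3) * ζ ^ 58 + (6) * ζ ^ 59 + (12) * ζ ^ 60 + (11) * ζ ^ 61 + (4) * ζ ^ 62 + (6) * ζ ^ 63 + (16) * ζ ^ 64 + (-22) * ζ ^ 65 + (33) * ζ ^ 66 + (10) * ζ ^ 67 + (11) * ζ ^ 68 + (2) * ζ ^ 69 + (2) * ζ ^ 70 + (3) * ζ ^ 71 + (7) * ζ ^ 72 + (1) * ζ ^ 73 + (1) * ζ ^ 74 + (-7) * ζ ^ 75 + (1) * ζ ^ 76 + (-45) * ζ ^ 78 + (29) * ζ ^ 79 + (-9) * ζ ^ 80 + (-7) * ζ ^ 81 + (-17) * ζ ^ 82 + (-7) * ζ ^ 83 + (-3) * ζ ^ 84 + (-16) * ζ ^ 85 + (-18) * ζ ^ 86 + (-8) * ζ ^ 87 + (-10) * ζ ^ 88 + (-10) * ζ ^ 89 + (-10) * ζ ^ 90 + (-46) * ζ ^ 91 + (29) * ζ ^ 92 + (-3) * ζ ^ 93 + (-14) * ζ ^ 94 + (-5) * ζ ^ 95 + (7) * ζ ^ 96 + (-5) * ζ ^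 97 + (-4) * ζ ^ 98 + (2) * ζ ^ 99 + (10) * ζ ^ 100 + (1) * ζ ^ 101 + (9) * ζ ^ 102 + (6) * ζ ^ 103 + (-24) * ζ ^ 104 + (42) * ζ ^ 105 + (8) * ζ ^ 106 + (9) * ζ ^ 107 + (11) * ζ ^ 108 + (15) * ζ ^ 109 + (13) * ζ ^ 110 + (7) * ζ ^ 111 + (11) * ζ ^ 112 + (10) * ζ ^ 113 + (-1) * ζ ^ 114 + (16) * ζ ^ 115 + (3) * ζ ^ 116 + (-36) * ζ ^ 117 + (40) * ζ ^ 118 + (5) * ζ ^ 119 + (-1) * ζ ^ 120 + (10) * ζ ^ 121 + (-8) * ζ ^ 122 + (-5) * ζ ^ 123 + (-9) * ζ ^ 124 + (-1) * ζ ^ 125 + (-10) * ζ ^ 126 + (-7) * ζ ^ 127 + (-3) * ζ ^ 128 + (-15) * ζ ^ 129 + (-32) * ζ ^ 130 + (25) * ζ ^ 131 + (-4) * ζ ^ 132 + (-8) * ζ ^ 133 + (-8) * ζ ^ 134 + (-10) * ζ ^ 135 + (-9) * ζ ^ 136 + (-2) * ζ ^ 137 + (6) * ζ ^ 138 +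 (-13) * ζ ^ 139 + (1) * ζ ^ 140 + (2) * ζ ^ 141 + (-1) * ζ ^ 142 + (-32) * ζ ^ 143 + (41) * ζ ^ 144 + (-11) * ζ ^ 145 + (9) * ζ ^ 146 + (11) * ζ ^ 147 + (-10) * ζ ^ 148 + (9) * ζ ^ 149 + (8) * ζ ^ 150 + (8) * ζ ^ 151 + (-11) * ζ ^ 152 + (12) * ζ ^ 153 + (7) * ζ ^ 154 + (2) * ζ ^ 155 + (-28) * ζ ^ 156 + (32) * ζ ^ 157 + (3) * ζ ^ 158 + (5) * ζ ^ 159 + (-3) * ζ ^ 160 + (-1) * ζ ^ 161 + (-3) * ζ ^ 162 + (7) * ζ ^ 163 + (-3) * ζ ^ 164 + (-6) * ζ ^ 165 + (5) * ζ ^ 166 + (-1) * ζ ^ 167 + (-9) * ζ ^ 168 + (-16) * ζ ^ 169 + (18) * ζ ^ 170 + (-11) * ζ ^ 171 + (10) * ζ ^ 172 + (-8) * ζ ^ 173 + (1) * ζ ^ 174 + (-6) * ζ ^ 175 + (6) * ζ ^ 176 + (-7) * ζ ^ 177 + (2) * ζ ^ 178 + (-4) * ζ ^ 181 + (-8) *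 ζ ^ 182 + (12) * ζ ^ 183 + (-4) * ζ ^ 184 + (6) * ζ ^ 185 + (-2) * ζ ^ 186 + (2) * ζ ^ 187 + (-1) * ζ ^ 188 + (8) * ζ ^ 189 + (-6) * ζ ^ 190 + (3) * ζ ^ 191 + (1) * ζ ^ 192 + (1) * ζ ^ 193 + (-6) * ζ ^ 194 + (5) * ζ ^ 196 + (-2) * ζ ^ 197 + (1) * ζ ^ 198 + (-2) * ζ ^ 199 + (2) * ζ ^ 200 + (1) * ζ ^ 202 + (-3) * ζ ^ 203 + (2) * ζ ^ 204 + (-1) * ζ ^ 205 + (1) * ζ ^ 206 + (-4) * ζ ^ 207 + (1) * ζ ^ 209 + (-1) * ζ ^ 210 + (1) * ζ ^ 211 + (2) * ζ ^ 215 + (-1) * ζ ^ 216 + (1) * ζ ^ 217 + (-1) * ζ ^ 220 + (-1) * ζ ^ 221 + (1) * ζ ^ 222) * hΦ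


/-- The polynomial whose value at `ζ₁₃` generates a prime above `131`. -/
noncomputable def gen131 : ℤ[X] := 1 - X - X ^ 3

theorem prod_gen131 {K : Type*} [Field K] (ζ : K)
    (hΦ : 1 + ζ + ζ ^ 2 + ζ ^ 3 + ζ ^ 4 + ζ ^ 5 + ζ ^ 6 + ζ ^ 7 + ζ ^ 8 + ζ ^ 9 + ζ ^ 10 + ζ ^ 11 + ζ ^ 12 = 0) :
    (1 - ζ ^ 1 - (ζ ^ 1) ^ 3) * (1 - ζ ^ 2 - (ζ ^ 2) ^ 3) * (1 - ζ ^ 3 - (ζ ^ 3) ^ 3) * (1 - ζ ^ 4 - (ζ ^ 4) ^ 3) * (1 - ζ ^ 5 - (ζ ^ 5) ^ 3) * (1 - ζ ^ 6 - (ζ ^ 6) ^ 3) * (1 - ζ ^ 7 - (ζ ^ 7) ^ 3) * (1 - ζ ^ 8 - (ζ ^ 8) ^ 3) * (1 - ζ ^ 9 - (ζ ^ 9) ^ 3) * (1 - ζ ^ 10 - (ζ ^ 10) ^ 3) * (1 - ζ ^ 11 - (ζ ^ 11) ^ 3) * (1 - ζ ^ 12 - (ζ ^ 12) ^ 3) = 131 := by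
  linear_combination ((-130) + (129) * ζ + (1) * ζ ^ 4 + (2) * ζ ^ 5 + (-2) * ζ ^ 6 + (3) * ζ ^ 7 + (-3) * ζ ^ 8 + (1) * ζ ^ 9 + (-1) * ζ ^ 10 + (-4) * ζ ^ 12 + (-126) * ζ ^ 13 + (127) * ζ ^ 14 + (-2) * ζ ^ 15 + (1) * ζ ^ 17 + (8) * ζ ^ 18 + (-5) * ζ ^ 19 + (8) * ζ ^ 20 + (-2) * ζ ^ 21 + (7) * ζ ^ 22 + (-6) * ζ ^ 23 + (5) * ζ ^ 24 + (-17) * ζ ^ 25 + (-114) * ζ ^ 26 + (117) * ζ ^ 27 + (-5) * ζ ^ 28 + (-10) * ζ ^ 29 + (3) * ζ ^ 30 + (5) * ζ ^ 31 + (-3) * ζ ^ 32 + (10) * ζ ^ 33 + (-4) * ζ ^ 34 + (8) * ζ ^ 35 + (9) * ζ ^ 36 + (11) * ζ ^ 37 + (-20) * ζ ^ 38 + (-98) * ζ ^ 39 + (100) * ζ ^ 40 + (13) * ζ ^ 41 + (-32) * ζ ^ 42 + (20) * ζ ^ 43 + (-9) * ζ ^ 44 + (-5) * ζ ^ 45 + (1) * ζ ^ 46 + (1) *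 ζ ^ 47 + (-13) * ζ ^ 48 + (25) * ζ ^ 49 + (-5) * ζ ^ 50 + (-1) * ζ ^ 51 + (-88) * ζ ^ 52 + (88) * ζ ^ 53 + (-6) * ζ ^ 54 + (-12) * ζ ^ 55 + (25) * ζ ^ 56 + (2) * ζ ^ 57 + (-13) * ζ ^ 58 + (8) * ζ ^ 59 + (-6) * ζ ^ 60 + (-7) * ζ ^ 61 + (20) * ζ ^ 62 + (-26) * ζ ^ 63 + (30) * ζ ^ 64 + (-72) * ζ ^ 65 + (67) * ζ ^ 66 + (-22) * ζ ^ 67 + (-13) * ζ ^ 68 + (16) * ζ ^ 69 + (6) * ζ ^ 70 + (-21) * ζ ^ 71 + (25) * ζ ^ 72 + (-17) * ζ ^ 73 + (7) * ζ ^ 74 + (37) * ζ ^ 75 + (-61) * ζ ^ 76 + (-6) * ζ ^ 77 + (39) * ζ ^ 78 + (-7) * ζ ^ 79 + (31) * ζ ^ 80 + (-61) * ζ ^ 81 + (55) * ζ ^ 82 + (-17) * ζ ^ 83 + (-1) * ζ ^ 84 + (-14) * ζ ^ 85 + (2) * ζ ^ 86 + (-32) * ζ ^ 87 + (72) * ζ ^ 88 + (-58) * ζ ^ 89 + (20)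 * ζ ^ 90 + (6) * ζ ^ 91 + (-9) * ζ ^ 92 + (13) * ζ ^ 93 + (-30) * ζ ^ 94 + (47) * ζ ^ 95 + (-23) * ζ ^ 96 + (7) * ζ ^ 97 + (-4) * ζ ^ 98 + (-22) * ζ ^ 99 + (10) * ζ ^ 100 + (23) * ζ ^ 101 + (-27) * ζ ^ 102 + (24) * ζ ^ 103 + (-28) * ζ ^ 106 + (11) * ζ ^ 107 + (-9) * ζ ^ 108 + (31) * ζ ^ 109 + (-21) * ζ ^ 110 + (1) * ζ ^ 111 + (-27) * ζ ^ 112 + (54) * ζ ^ 113 + (-35) * ζ ^ 114 + (32) * ζ ^ 115 + (-51) * ζ ^ 116 + (64) * ζ ^ 117 + (-54) * ζ ^ 118 + (31) * ζ ^ 119 + (-21) * ζ ^ 120 + (8) * ζ ^ 121 + (-20) * ζ ^ 122 + (51) * ζ ^ 123 + (-57) * ζ ^ 124 + (43) * ζ ^ 125 + (-34) * ζ ^ 126 + (25) * ζ ^ 127 + (-17) * ζ ^ 128 + (23) * ζ ^ 129 + (-8) * ζ ^ 130 + (-13) * ζ ^ 131 + (-12) * ζ ^ 132 + (38)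 * ζ ^ 133 + (-42) * ζ ^ 134 + (42) * ζ ^ 135 + (-25) * ζ ^ 136 + (2) * ζ ^ 137 + (4) * ζ ^ 138 + (7) * ζ ^ 139 + (-5) * ζ ^ 140 + (-10) * ζ ^ 141 + (11) * ζ ^ 142 + (10) * ζ ^ 143 + (-19) * ζ ^ 144 + (3) * ζ ^ 145 + (7) * ζ ^ 146 + (-13) * ζ ^ 147 + (20) * ζ ^ 148 + (-15) * ζ ^ 149 + (12) * ζ ^ 150 + (-22) * ζ ^ 151 + (31) * ζ ^ 152 + (-26) * ζ ^ 153 + (23) * ζ ^ 154 + (-12) * ζ ^ 155 + (10) * ζ ^ 156 + (-26) * ζ ^ 157 + (31) * ζ ^ 158 + (-33) * ζ ^ 159 + (37) * ζ ^ 160 + (-41) * ζ ^ 161 + (41) * ζ ^ 162 + (-35) * ζ ^ 163 + (33) * ζ ^ 164 + (-28) * ζ ^ 165 + (19) * ζ ^ 166 + (-25) * ζ ^ 167 + (41) * ζ ^ 168 + (-38) * ζ ^ 169 + (34) * ζ ^ 170 + (-41) * ζ ^ 171 + (34) * ζ ^ 172 + (-30) * ζ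 ^ 173 + (33) * ζ ^ 174 + (-30) * ζ ^ 175 + (24) * ζ ^ 176 + (-25) * ζ ^ 177 + (34) * ζ ^ 178 + (-38) * ζ ^ 179 + (34) * ζ ^ 180 + (-30) * ζ ^ 181 + (26) * ζ ^ 182 + (-24) * ζ ^ 183 + (22) * ζ ^ 184 + (-22) * ζ ^ 185 + (20) * ζ ^ 186 + (-18) * ζ ^ 187 + (21) * ζ ^ 188 + (-22) * ζ ^ 189 + (20) * ζ ^ 190 + (-19) * ζ ^ 191 + (17) * ζ ^ 192 + (-15) * ζ ^ 193 + (16) * ζ ^ 194 + (-16) * ζ ^ 195 + (11) * ζ ^ 196 + (-10) * ζ ^ 197 + (11) * ζ ^ 198 + (-10) * ζ ^ 199 + (12) * ζ ^ 200 + (-12) * ζ ^ 201 + (9) * ζ ^ 202 + (-7) * ζ ^ 203 + (6) * ζ ^ 204 + (-5) * ζ ^ 205 + (3) * ζ ^ 206 + (-2) * ζ ^ 207 + (4) * ζ ^ 208 + (-5) * ζ ^ 209 + (5) * ζ ^ 210 + (-5) * ζ ^ 211 + (4) * ζ ^ 212 + (-2) * ζ ^ 213 +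 (2) * ζ ^ 214 + (-2) * ζ ^ 215 + (1) * ζ ^ 216 + (-1) * ζ ^ 217 + (2) * ζ ^ 218 + (-2) * ζ ^ 219 + (1) * ζ ^ 220 + (-1) * ζ ^ 221 + (1) * ζ ^ 222) * hΦ


/-- The polynomial whose value at `ζ₁₃` generates a prime above `79`. -/
noncomputable def gen79 : ℤ[X] := 1 + X - X ^ 4

theorem prod_gen79 {K : Type*} [Field K] (ζ : K)
    (hΦ : 1 + ζ + ζ ^ 2 + ζ ^ 3 + ζ ^ 4 + ζ ^ 5 + ζ ^ 6 + ζ ^ 7 + ζ ^ 8 + ζ ^ 9 + ζ ^ 10 + ζ ^ 11 + ζ ^ 12 = 0) :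
    (1 + ζ ^ 1 - (ζ ^ 1) ^ 4) * (1 + ζ ^ 2 - (ζ ^ 2) ^ 4) * (1 + ζ ^ 3 - (ζ ^ 3) ^ 4) * (1 + ζ ^ 4 - (ζ ^ 4) ^ 4) * (1 + ζ ^ 5 - (ζ ^ 5) ^ 4) * (1 + ζ ^ 6 - (ζ ^ 6) ^ 4) * (1 + ζ ^ 7 - (ζ ^ 7) ^ 4) * (1 + ζ ^ 8 - (ζ ^ 8) ^ 4) * (1 + ζ ^ 9 - (ζ ^ 9) ^ 4) * (1 + ζ ^ 10 - (ζ ^ 10) ^ 4) * (1 + ζ ^ 11 - (ζ ^ 11) ^ 4) * (1 + ζ ^ 12 - (ζ ^ 12) ^ 4) = 79 := by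
  linear_combination ((-78) + (79) * ζ + (1) * ζ ^ 3 + (-1) * ζ ^ 4 + (2) * ζ ^ 5 + (1) * ζ ^ 7 + (1) * ζ ^ 9 + (3) * ζ ^ 10 + (2) * ζ ^ 12 + (-79) * ζ ^ 13 + (82) * ζ ^ 14 + (2) * ζ ^ 15 + (2) * ζ ^ 16 + (-1) * ζ ^ 17 + (4) * ζ ^ 18 + (-1) * ζ ^ 19 + (6) * ζ ^ 20 + (2) * ζ ^ 22 + (1) * ζ ^ 23 + (-2) * ζ ^ 24 + (5) * ζ ^ 25 + (-81) * ζ ^ 26 + (82) * ζ ^ 27 + (-2) * ζ ^ 29 + (-3) * ζ ^ 30 + (2) * ζ ^ 31 + (-6) * ζ ^ 32 + (5) * ζ ^ 33 + (-14) * ζ ^ 34 + (6) * ζ ^ 35 + (-7) * ζ ^ 36 + (-3) * ζ ^ 37 + (-5) * ζ ^ 38 + (-88) * ζ ^ 39 + (79) * ζ ^ 40 + (-6) * ζ ^ 41 + (-12) * ζ ^ 42 + (-8) * ζ ^ 43 + (-4) * ζ ^ 44 + (-1) * ζ ^ 45 + (-3) * ζ ^ 46 + (-16) * ζ ^ 47 + (-16) * ζ ^ 49 + (5) * ζ ^ 50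 + (-15) * ζ ^ 51 + (-77) * ζ ^ 52 + (67) * ζ ^ 53 + (2) * ζ ^ 54 + (3) * ζ ^ 55 + (-4) * ζ ^ 56 + (-4) * ζ ^ 57 + (1) * ζ ^ 58 + (-6) * ζ ^ 59 + (3) * ζ ^ 60 + (2) * ζ ^ 61 + (1) * ζ ^ 62 + (8) * ζ ^ 63 + (-7) * ζ ^ 64 + (-53) * ζ ^ 65 + (88) * ζ ^ 66 + (7) * ζ ^ 67 + (5) * ζ ^ 68 + (-14) * ζ ^ 69 + (31) * ζ ^ 70 + (10) * ζ ^ 71 + (7) * ζ ^ 72 + (10) * ζ ^ 73 + (6) * ζ ^ 74 + (25) * ζ ^ 75 + (8) * ζ ^ 76 + (14) * ζ ^ 77 + (-46) * ζ ^ 78 + (64) * ζ ^ 79 + (20) * ζ ^ 80 + (5) * ζ ^ 81 + (3) * ζ ^ 82 + (28) * ζ ^ 83 + (-16) * ζ ^ 84 + (28) * ζ ^ 85 + (-11) * ζ ^ 86 + (8) * ζ ^ 87 + (18) * ζ ^ 88 + (-19) * ζ ^ 89 + (17) * ζ ^ 90 + (-49) * ζ ^ 91 + (38) * ζ ^ 92 + (19) * ζ ^ 93 + (-60) * ζ ^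 94 + (31) * ζ ^ 95 + (-6) * ζ ^ 96 + (-8) * ζ ^ 97 + (-20) * ζ ^ 98 + (-32) * ζ ^ 99 + (16) * ζ ^ 100 + (4) * ζ ^ 101 + (-32) * ζ ^ 102 + (-20) * ζ ^ 103 + (-63) * ζ ^ 104 + (47) * ζ ^ 105 + (-14) * ζ ^ 106 + (-42) * ζ ^ 107 + (7) * ζ ^ 108 + (-22) * ζ ^ 109 + (-3) * ζ ^ 110 + (-23) * ζ ^ 111 + (-22) * ζ ^ 112 + (6) * ζ ^ 113 + (-9) * ζ ^ 114 + (-9) * ζ ^ 115 + (-11) * ζ ^ 116 + (-46) * ζ ^ 117 + (40) * ζ ^ 118 + (-21) * ζ ^ 119 + (3) * ζ ^ 120 + (-6) * ζ ^ 121 + (25) * ζ ^ 122 + (-11) * ζ ^ 123 + (-11) * ζ ^ 124 + (-6) * ζ ^ 125 + (29) * ζ ^ 126 + (20) * ζ ^ 127 + (5) * ζ ^ 128 + (-26) * ζ ^ 129 + (18) * ζ ^ 130 + (25) * ζ ^ 131 + (11) * ζ ^ 132 + (-2) * ζ ^ 133 + (11) * ζ ^ 134 + (40)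 * ζ ^ 135 + (13) * ζ ^ 136 + (-11) * ζ ^ 137 + (17) * ζ ^ 138 + (12) * ζ ^ 139 + (39) * ζ ^ 140 + (-15) * ζ ^ 141 + (17) * ζ ^ 142 + (-10) * ζ ^ 143 + (9) * ζ ^ 144 + (26) * ζ ^ 145 + (-2) * ζ ^ 146 + (10) * ζ ^ 147 + (10) * ζ ^ 148 + (5) * ζ ^ 149 + (-8) * ζ ^ 150 + (-3) * ζ ^ 151 + (15) * ζ ^ 152 + (19) * ζ ^ 153 + (-37) * ζ ^ 154 + (16) * ζ ^ 155 + (-30) * ζ ^ 156 + (15) * ζ ^ 157 + (-14) * ζ ^ 158 + (-10) * ζ ^ 160 + (10) * ζ ^ 161 + (-2) * ζ ^ 162 + (-30) * ζ ^ 163 + (-12) * ζ ^ 164 + (21) * ζ ^ 165 + (-22) * ζ ^ 166 + (-13) * ζ ^ 167 + (-5) * ζ ^ 168 + (-16) * ζ ^ 169 + (-13) * ζ ^ 170 + (3) * ζ ^ 171 + (-9) * ζ ^ 172 + (5) * ζ ^ 173 + (-5) * ζ ^ 174 + (6) * ζ ^ 175 + (-31) * ζ ^ 176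 + (6) * ζ ^ 177 + (8) * ζ ^ 178 + (-4) * ζ ^ 179 + (-9) * ζ ^ 180 + (10) * ζ ^ 181 + (-15) * ζ ^ 182 + (-3) * ζ ^ 183 + (9) * ζ ^ 184 + (-4) * ζ ^ 185 + (3) * ζ ^ 186 + (20) * ζ ^ 187 + (4) * ζ ^ 188 + (-23) * ζ ^ 189 + (14) * ζ ^ 190 + (16) * ζ ^ 191 + (-2) * ζ ^ 192 + (-8) * ζ ^ 193 + (24) * ζ ^ 194 + (-22) * ζ ^ 195 + (18) * ζ ^ 196 + (-3) * ζ ^ 197 + (6) * ζ ^ 198 + (5) * ζ ^ 199 + (18) * ζ ^ 200 + (-8) * ζ ^ 201 + (-6) * ζ ^ 202 + (3) * ζ ^ 203 + (22) * ζ ^ 204 + (-15) * ζ ^ 205 + (2) * ζ ^ 206 + (11) * ζ ^ 207 + (-20) * ζ ^ 208 + (11) * ζ ^ 209 + (5) * ζ ^ 210 + (-10) * ζ ^ 211 + (5) * ζ ^ 212 + (8) * ζ ^ 213 + (1) * ζ ^ 214 + (-21) * ζ ^ 215 + (10) * ζ ^ 216 + (4) * ζ ^ 217 + (-4)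 * ζ ^ 218 + (-1) * ζ ^ 219 + (1) * ζ ^ 220 + (-14) * ζ ^ 221 + (3) * ζ ^ 222 + (-6) * ζ ^ 224 + (4) * ζ ^ 225 + (6) * ζ ^ 226 + (-6) * ζ ^ 227 + (-10) * ζ ^ 228 + (9) * ζ ^ 229 + (-4) * ζ ^ 230 + (1) * ζ ^ 231 + (-5) * ζ ^ 232 + (9) * ζ ^ 233 + (-13) * ζ ^ 234 + (5) * ζ ^ 235 + (-1) * ζ ^ 236 + (-3) * ζ ^ 237 + (3) * ζ ^ 238 + (10) * ζ ^ 239 + (-11) * ζ ^ 240 + (1) * ζ ^ 241 + (1) * ζ ^ 242 + (3) * ζ ^ 243 + (2) * ζ ^ 244 + (-3) * ζ ^ 245 + (2) * ζ ^ 246 + (-6) * ζ ^ 247 + (6) * ζ ^ 248 + (2) * ζ ^ 249 + (-5) * ζ ^ 250 + (6) * ζ ^ 251 + (2) * ζ ^ 252 + (-4) * ζ ^ 253 + (1) * ζ ^ 254 + (1) * ζ ^ 255 + (2) * ζ ^ 256 + (-1) * ζ ^ 257 + (-1) * ζ ^ 258 + (2) * ζ ^ 259 + (-5) * ζ ^ 260 + (3) *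 ζ ^ 261 + (-2) * ζ ^ 263 + (5) * ζ ^ 264 + (-1) * ζ ^ 265 + (-2) * ζ ^ 266 + (1) * ζ ^ 268 + (-2) * ζ ^ 271 + (1) * ζ ^ 272 + (-3) * ζ ^ 273 + (3) * ζ ^ 274 + (-2) * ζ ^ 275 + (1) * ζ ^ 277 + (2) * ζ ^ 278 + (-3) * ζ ^ 279 + (1) * ζ ^ 280 + (-1) * ζ ^ 281 + (1) * ζ ^ 282 + (-2) * ζ ^ 284 + (2) * ζ ^ 285 + (-2) * ζ ^ 286 + (2) * ζ ^ 287 + (-1) * ζ ^ 288 + (1) * ζ ^ 290 + (1) * ζ ^ 291 + (-1) * ζ ^ 292 + (1) * ζ ^ 293 + (-1) * ζ ^ 294 + (1) * ζ ^ 295 + (-1) * ζ ^ 297 + (-1) * ζ ^ 299 + (1) * ζ ^ 300) * hΦ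


/-- The polynomial whose value at `ζ₁₃` generates a prime above `157`. -/
noncomputable def gen157 : ℤ[X] := 1 - X + X ^ 2 + X ^ 4

theorem prod_gen157 {K : Type*} [Field K] (ζ : K)
    (hΦ : 1 + ζ + ζ ^ 2 + ζ ^ 3 + ζ ^ 4 + ζ ^ 5 + ζ ^ 6 + ζ ^ 7 + ζ ^ 8 + ζ ^ 9 + ζ ^ 10 + ζ ^ 11 + ζ ^ 12 = 0) :
    (1 - ζ ^ 1 + (ζ ^ 1) ^ 2 + (ζ ^ 1) ^ 4) * (1 - ζ ^ 2 + (ζ ^ 2) ^ 2 + (ζ ^ 2) ^ 4) * (1 - ζ ^ 3 + (ζ ^ 3) ^ 2 + (ζ ^ 3) ^ 4) * (1 - ζ ^ 4 + (ζ ^ 4) ^ 2 + (ζ ^ 4) ^ 4) * (1 - ζ ^ 5 + (ζ ^ 5) ^ 2 + (ζ ^ 5) ^ 4) * (1 - ζ ^ 6 + (ζ ^ 6) ^ 2 + (ζ ^ 6) ^ 4) * (1 - ζ ^ 7 + (ζ ^ 7) ^ 2 + (ζ ^ 7) ^ 4) * (1 - ζ ^ 8 + (ζ ^ 8) ^ 2 + (ζ ^ 8) ^ 4) * (1 - ζ ^ 9 + (ζ ^ 9) ^ 2 + (ζ ^ 9) ^ 4) * (1 - ζ ^ 10 + (ζ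 ^ 10) ^ 2 + (ζ ^ 10) ^ 4) * (1 - ζ ^ 11 + (ζ ^ 11) ^ 2 + (ζ ^ 11) ^ 4) * (1 - ζ ^ 12 + (ζ ^ 12) ^ 2 + (ζ ^ 12) ^ 4) = 157 := by
  linear_combination ((-156) + (155) * ζ + (1) * ζ ^ 2 + (1) * ζ ^ 4 + (-2) * ζ ^ 5 + (1) * ζ ^ 6 + (-2) * ζ ^ 7 + (4) * ζ ^ 8 + (-3) * ζ ^ 9 + (3) * ζ ^ 10 + (-4) * ζ ^ 11 + (6) * ζ ^ 12 + (-163) * ζ ^ 13 + (159) * ζ ^ 14 + (-2) * ζ ^ 15 + (5) * ζ ^ 16 + (-6) * ζ ^ 17 + (6) * ζ ^ 18 + (-7) * ζ ^ 19 + (10) * ζ ^ 20 + (-12) * ζ ^ 21 + (10) * ζ ^ 22 + (-9) * ζ ^ 23 + (15) * ζ ^ 24 + (-15) * ζ ^ 25 + (-148) * ζ ^ 26 + (141) * ζ ^ 27 + (24) * ζ ^ 28 + (-25) * ζ ^ 29 + (24) * ζ ^ 30 + (-27) * ζ ^ 31 + (33) * ζ ^ 32 + (-25) * ζ ^ 33 + (20) * ζ ^ 34 + (-25) * ζ ^ 35 +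 (37) * ζ ^ 36 + (-39) * ζ ^ 37 + (34) * ζ ^ 38 + (-199) * ζ ^ 39 + (204) * ζ ^ 40 + (-54) * ζ ^ 41 + (45) * ζ ^ 42 + (-47) * ζ ^ 43 + (62) * ζ ^ 44 + (-63) * ζ ^ 45 + (62) * ζ ^ 46 + (-71) * ζ ^ 47 + (104) * ζ ^ 48 + (-93) * ζ ^ 49 + (82) * ζ ^ 50 + (-99) * ζ ^ 51 + (-40) * ζ ^ 52 + (42) * ζ ^ 53 + (95) * ζ ^ 54 + (-118) * ζ ^ 55 + (137) * ζ ^ 56 + (-146) * ζ ^ 57 + (132) * ζ ^ 58 + (-150) * ζ ^ 59 + (178) * ζ ^ 60 + (-169) * ζ ^ 61 + (165) * ζ ^ 62 + (-158) * ζ ^ 63 + (196) * ζ ^ 64 + (-354) * ζ ^ 65 + (345) * ζ ^ 66 + (-219) * ζ ^ 67 + (268) * ζ ^ 68 + (-256) * ζ ^ 69 + (237) * ζ ^ 70 + (-293) * ζ ^ 71 + (317) * ζ ^ 72 + (-316) * ζ ^ 73 + (281) * ζ ^ 74 + (-323) * ζ ^ 75 + (384) * ζ ^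 76 + (-371) * ζ ^ 77 + (200) * ζ ^ 78 + (-243) * ζ ^ 79 + (462) * ζ ^ 80 + (-444) * ζ ^ 81 + (432) * ζ ^ 82 + (-435) * ζ ^ 83 + (497) * ζ ^ 84 + (-484) * ζ ^ 85 + (450) * ζ ^ 86 + (-534) * ζ ^ 87 + (619) * ζ ^ 88 + (-611) * ζ ^ 89 + (578) * ζ ^ 90 + (-819) * ζ ^ 91 + (856) * ζ ^ 92 + (-653) * ζ ^ 93 + (627) * ζ ^ 94 + (-713) * ζ ^ 95 + (807) * ζ ^ 96 + (-794) * ζ ^ 97 + (798) * ζ ^ 98 + (-850) * ζ ^ 99 + (908) * ζ ^ 100 + (-870) * ζ ^ 101 + (837) * ζ ^ 102 + (-864) * ζ ^ 103 + (786) * ζ ^ 104 + (-834) * ζ ^ 105 + (974) * ζ ^ 106 + (-1033) * ζ ^ 107 + (1142) * ζ ^ 108 + (-1115) * ζ ^ 109 + (1067) * ζ ^ 110 + (-1174) * ζ ^ 111 + (1252) * ζ ^ 112 + (-1189) * ζ ^ 113 + (1167) * ζ ^ 114 + (-1295)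 * ζ ^ 115 + (1422) * ζ ^ 116 + (-1542) * ζ ^ 117 + (1475) * ζ ^ 118 + (-1445) * ζ ^ 119 + (1570) * ζ ^ 120 + (-1492) * ζ ^ 121 + (1433) * ζ ^ 122 + (-1488) * ζ ^ 123 + (1593) * ζ ^ 124 + (-1587) * ζ ^ 125 + (1546) * ζ ^ 126 + (-1650) * ζ ^ 127 + (1788) * ζ ^ 128 + (-1708) * ζ ^ 129 + (1530) * ζ ^ 130 + (-1690) * ζ ^ 131 + (1871) * ζ ^ 132 + (-1780) * ζ ^ 133 + (1787) * ζ ^ 134 + (-1950) * ζ ^ 135 + (2046) * ζ ^ 136 + (-1976) * ζ ^ 137 + (1975) * ζ ^ 138 + (-2096) * ζ ^ 139 + (2142) * ζ ^ 140 + (-2096) * ζ ^ 141 + (2082) * ζ ^ 142 + (-2170) * ζ ^ 143 + (2227) * ζ ^ 144 + (-2125) * ζ ^ 145 + (2092) * ζ ^ 146 + (-2168) * ζ ^ 147 + (2271) * ζ ^ 148 + (-2248) * ζ ^ 149 + (2182) * ζ ^ 150 + (-2239)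 * ζ ^ 151 + (2297) * ζ ^ 152 + (-2201) * ζ ^ 153 + (2166) * ζ ^ 154 + (-2340) * ζ ^ 155 + (2409) * ζ ^ 156 + (-2344) * ζ ^ 157 + (2421) * ζ ^ 158 + (-2516) * ζ ^ 159 + (2518) * ζ ^ 160 + (-2406) * ζ ^ 161 + (2328) * ζ ^ 162 + (-2360) * ζ ^ 163 + (2447) * ζ ^ 164 + (-2462) * ζ ^ 165 + (2416) * ζ ^ 166 + (-2443) * ζ ^ 167 + (2526) * ζ ^ 168 + (-2473) * ζ ^ 169 + (2385) * ζ ^ 170 + (-2362) * ζ ^ 171 + (2377) * ζ ^ 172 + (-2318) * ζ ^ 173 + (2294) * ζ ^ 174 + (-2404) * ζ ^ 175 + (2462) * ζ ^ 176 + (-2366) * ζ ^ 177 + (2326) * ζ ^ 178 + (-2378) * ζ ^ 179 + (2394) * ζ ^ 180 + (-2311) * ζ ^ 181 + (2254) * ζ ^ 182 + (-2236) * ζ ^ 183 + (2280) * ζ ^ 184 + (-2266) * ζ ^ 185 + (2210) * ζ ^ 186 + (-2205)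 * ζ ^ 187 + (2201) * ζ ^ 188 + (-2128) * ζ ^ 189 + (2080) * ζ ^ 190 + (-2078) * ζ ^ 191 + (2084) * ζ ^ 192 + (-1981) * ζ ^ 193 + (1885) * ζ ^ 194 + (-1907) * ζ ^ 195 + (1953) * ζ ^ 196 + (-1898) * ζ ^ 197 + (1858) * ζ ^ 198 + (-1853) * ζ ^ 199 + (1821) * ζ ^ 200 + (-1756) * ζ ^ 201 + (1725) * ζ ^ 202 + (-1665) * ζ ^ 203 + (1626) * ζ ^ 204 + (-1603) * ζ ^ 205 + (1576) * ζ ^ 206 + (-1567) * ζ ^ 207 + (1578) * ζ ^ 208 + (-1487) * ζ ^ 209 + (1378) * ζ ^ 210 + (-1349) * ζ ^ 211 + (1361) * ζ ^ 212 + (-1296) * ζ ^ 213 + (1221) * ζ ^ 214 + (-1199) * ζ ^ 215 + (1210) * ζ ^ 216 + (-1168) * ζ ^ 217 + (1126) * ζ ^ 218 + (-1107) * ζ ^ 219 + (1069) * ζ ^ 220 + (-986) * ζ ^ 221 + (957) * ζ ^ 222 + (-947)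 * ζ ^ 223 + (933) * ζ ^ 224 + (-881) * ζ ^ 225 + (832) * ζ ^ 226 + (-810) * ζ ^ 227 + (806) * ζ ^ 228 + (-766) * ζ ^ 229 + (713) * ζ ^ 230 + (-675) * ζ ^ 231 + (660) * ζ ^ 232 + (-616) * ζ ^ 233 + (583) * ζ ^ 234 + (-562) * ζ ^ 235 + (544) * ζ ^ 236 + (-501) * ζ ^ 237 + (486) * ζ ^ 238 + (-488) * ζ ^ 239 + (470) * ζ ^ 240 + (-415) * ζ ^ 241 + (380) * ζ ^ 242 + (-365) * ζ ^ 243 + (354) * ζ ^ 244 + (-338) * ζ ^ 245 + (327) * ζ ^ 246 + (-301) * ζ ^ 247 + (296) * ζ ^ 248 + (-279) * ζ ^ 249 + (252) * ζ ^ 250 + (-234) * ζ ^ 251 + (223) * ζ ^ 252 + (-196) * ζ ^ 253 + (181) * ζ ^ 254 + (-178) * ζ ^ 255 + (177) * ζ ^ 256 + (-158) * ζ ^ 257 + (142) * ζ ^ 258 + (-133) * ζ ^ 259 + (131) * ζ ^ 260 +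 (-114) * ζ ^ 261 + (100) * ζ ^ 262 + (-90) * ζ ^ 263 + (87) * ζ ^ 264 + (-83) * ζ ^ 265 + (80) * ζ ^ 266 + (-73) * ζ ^ 267 + (70) * ζ ^ 268 + (-60) * ζ ^ 269 + (52) * ζ ^ 270 + (-49) * ζ ^ 271 + (50) * ζ ^ 272 + (-40) * ζ ^ 273 + (31) * ζ ^ 274 + (-30) * ζ ^ 275 + (32) * ζ ^ 276 + (-26) * ζ ^ 277 + (22) * ζ ^ 278 + (-21) * ζ ^ 279 + (22) * ζ ^ 280 + (-17) * ζ ^ 281 + (14) * ζ ^ 282 + (-12) * ζ ^ 283 + (9) * ζ ^ 284 + (-7) * ζ ^ 285 + (9) * ζ ^ 286 + (-9) * ζ ^ 287 + (9) * ζ ^ 288 + (-7) * ζ ^ 289 + (5) * ζ ^ 290 + (-4) * ζ ^ 291 + (4) * ζ ^ 292 + (-2) * ζ ^ 293 + (1) * ζ ^ 294 + (-2) * ζ ^ 295 + (3) * ζ ^ 296 + (-2) * ζ ^ 297 + (1) * ζ ^ 298 + (-1) * ζ ^ 299 + (1) * ζ ^ 300) * hΦ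

end Fermat.Agent.Lib.FltRegular.PID13
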