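import Mathlib

set_option autoImplicit false

namespace Fermat.Agent.Lib.FltRegular

open NumberField Ideal Polynomial IsCyclotomicExtension

/-- Reindex a product over the units of `ZMod p` (`p` prime) as a product over `1, …, p-1`. -/
theorem prod_units_zmod_eq_prod_Ico {p : ℕ} [hp : Fact p.Prime] {M : Type*} [CommMonoid M]
    (F : ℕ → M) :
    ∏ u : (ZMod p)ˣ, F u.val.val = ∏ i ∈ Finset.Ico 1 p, F i := by
  refine Finset.prod_bij (fun u _ => u.val.val) ?_ ?_ ?_ ?_
  · intro u _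
    rw [Finset.mem_Ico]
    refine ⟨?_, ZMod.val_lt _⟩
    rw [Nat.one_le_iff_ne_zero, Ne, ZMod.val_eq_zero]
    exact u.ne_zero
  · intro u _ v _ h
    exact Units.ext (ZMod.val_injective p h)
  · intro i hi
    rw [Finset.mem_Ico] at hi
    have hcop : Nat.Coprime i p := by
      rw [Nat.coprime_comm, hp.out.coprime_iff_not_dvd]
      intro hd
      have := Nat.le_of_dvd (by omega) hd
      omega
    refine ⟨ZMod.unitOfCoprime i hcop, Finset.mem_univ _, ?_⟩
    rw [ZMod.coe_unitOfCoprime, ZMod.val_cast_of_lt hi.2]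
  · intro u _
    rfl

variable {p : ℕ} [hp : Fact p.Prime] (K : Type*) [Field K] [NumberField K]
  [hK : IsCyclotomicExtension {p} ℚ K]

/-- The norm of `g(ζ)` in the `p`-th cyclotomic field is the product of the `g(ζ ^ i)`. -/
theorem algebraMap_norm_aeval_eq_prod {ζ : K} (hζ : IsPrimitiveRoot ζ p) (g : ℤ[X]) :
    algebraMap ℚ K (Algebra.norm ℚ (aeval ζ g)) = ∏ i ∈ Finset.Ico 1 p, aeval (ζ ^ i) g := by
  have : IsGalois ℚ K := IsCyclotomicExtension.isGalois {p} ℚ K
  rw [Algebra.norm_eq_prod_automorphisms]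
  have h1 : ∀ σ : Gal(K/ℚ), σ (aeval ζ g) =
      aeval (ζ ^ (Rat.galEquivZMod p K σ).val.val) g := by
    intro σ
    rw [← Rat.galEquivZMod_apply_of_pow_eq p K σ hζ.pow_eq_one]
    exact (Polynomial.aeval_algHom_apply ((σ : K →ₐ[ℚ] K).restrictScalars ℤ) ζ g).symm
  simp_rw [h1]
  rw [← prod_units_zmod_eq_prod_Ico (p := p) (fun i => aeval (ζ ^ i) g)]
  exact Fintype.prod_equiv (Rat.galEquivZMod p K).toEquiv _ _ (fun σ => rfl)

/-- Computing the integer norm of `g(ζ)` from the product of the `g(ζ ^ i)`. -/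
theorem norm_aeval_toInteger_eq_of_prod_eq {ζ : K} (hζ : IsPrimitiveRoot ζ p) (g : ℤ[X]) (n : ℤ)
    (h : ∏ i ∈ Finset.Ico 1 p, aeval (ζ ^ i) g = (n : K)) :
    Algebra.norm ℤ (aeval hζ.toInteger g) = n := by
  have h1 : ((aeval hζ.toInteger g : 𝓞 K) : K) = aeval ζ g := by
    have := Polynomial.aeval_algHom_apply (Algebra.ofId (𝓞 K) K |>.restrictScalars ℤ) hζ.toInteger g
    have h0 : (algebraMap (𝓞 K) K) hζ.toInteger = ζ := rfl
    exact this.symm.trans (by rw [show ((Algebra.ofId (𝓞 K) K).restrictScalars ℤ) hζ.toInteger = ζ from rfl])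
  have h2 : ((Algebra.norm ℤ (aeval hζ.toInteger g) : ℤ) : ℚ) = Algebra.norm ℚ (aeval ζ g) := by
    rw [Algebra.coe_norm_int, h1]
  have h3 : algebraMap ℚ K ((Algebra.norm ℤ (aeval hζ.toInteger g) : ℤ) : ℚ) =
      algebraMap ℚ K ((n : ℤ) : ℚ) := by
    rw [h2, algebraMap_norm_aeval_eq_prod K hζ g, h]
    simp
  exact_mod_cast (algebraMap ℚ K).injective h3

/-- If `α ∈ 𝓞 K` (`K` the `p`-th cyclotomic field) has absolute norm `q ^ f` where `q ≠ p` is prime
and `f` is the order of `q` modulo `p`, then `(α)` is a prime ideal above `q`; in particular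
there is a principal prime above `q`. -/
theorem exists_isPrincipal_mem_primesOver_of_natAbs_norm_eq {q : ℕ} [hq : Fact q.Prime]
    (hqp : ¬ q ∣ p) (α : 𝓞 K)
    (hα : (Algebra.norm ℤ α).natAbs = q ^ orderOf (q : ZMod p)) :
    ∃ P ∈ primesOver (span {(q : ℤ)}) (𝓞 K), Submodule.IsPrincipal P := by
  have : NeZero p := ⟨hp.out.ne_zero⟩
  set f := orderOf (q : ZMod p) with hf
  -- `f` is positive
  have hfpos : 0 < f := by
    obtain ⟨⟨P0, hP0, hP0'⟩⟩ := (span {(q : ℤ)}).nonempty_primesOver (S := 𝓞 K)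
    have h1 : P0.inertiaDeg ℤ = f := Rat.inertiaDeg_eq_of_not_dvd q K P0 hqp
    have : (span {(q : ℤ)}).IsMaximal := Int.ideal_span_isMaximal_of_prime q
    rw [← h1]
    exact inertiaDeg_pos P0 ℤ
  set I : Ideal (𝓞 K) := span {α} with hIdef
  have hI : absNorm I = q ^ f := by rw [hIdef, absNorm_span_singleton, hα]
  have hIne : I ≠ ⊤ := by
    rw [Ne, ← absNorm_eq_one_iff, hI]
    exact (Nat.one_lt_pow hfpos.ne' hq.out.one_lt).ne'
  obtain ⟨P, hPmax, hIP⟩ := Ideal.exists_le_maximal I hIne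
  have hPprime : P.IsPrime := hPmax.isPrime
  have hqP : (q : 𝓞 K) ∈ P := by
    have h1 : ((absNorm I : ℕ) : 𝓞 K) ∈ I := absNorm_mem I
    rw [hI] at h1
    have h2 := hIP h1
    rw [Nat.cast_pow] at h2
    exact hPprime.mem_of_pow_mem _ h2
  have hlies : P.LiesOver (span {(q : ℤ)}) := by
    rw [liesOver_iff]
    refine IsMaximal.eq_of_le (Int.ideal_span_isMaximal_of_prime q) IsPrime.ne_top' ?_
    rw [span_singleton_le_iff_mem, under_def, mem_comap, algebraMap_int_eq, eq_intCast,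
      Int.cast_natCast]
    exact hqP
  have hdeg : P.inertiaDeg ℤ = f := Rat.inertiaDeg_eq_of_not_dvd q K P hqp
  have hPn : absNorm P = q ^ f := by rw [← pow_inertiaDeg q P, hdeg]
  have hPI : P = I := by
    obtain ⟨J, hJ⟩ := (Ideal.dvd_iff_le.mpr hIP)
    have h1 : absNorm I = absNorm P * absNorm J := by rw [hJ, map_mul]
    rw [hI, hPn] at h1
    have hJ1 : absNorm J = 1 := by
      have hpos : 0 < q ^ f := pow_pos hq.out.pos f
      exact (Nat.eq_of_mul_eq_mul_left hpos (by rw [mul_one]; exact h1)).symm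
    rw [absNorm_eq_one_iff] at hJ1
    rw [hJ, hJ1, Ideal.mul_top]
  exact ⟨P, ⟨hPprime, hlies⟩, hPI ▸ ⟨α, rfl⟩⟩

end Fermat.Agent.Lib.FltRegular
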