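import Mathlib
import Fermat.Agent.Lib.FltRegular.PIDCommon
import Fermat.Agent.Lib.FltRegular.PID13Norms

set_option autoImplicit false

namespace Fermat.Agent.Lib.FltRegular.PID13

open NumberField Ideal Polynomial IsCyclotomicExtension

/-- A prime `q` with `q ^ f ≤ 306` and `q ^ f ≡ 1 mod 13` (`f > 0`) is one of the five exceptional
primes. -/
theorem exceptional_of_pow_le (q f : ℕ) (hq : q.Prime) (hf : 0 < f) (hle : q ^ f ≤ 306)
    (hmod : q ^ f % 13 = 1) : q = 3 ∨ q = 53 ∨ q = 79 ∨ q = 131 ∨ q = 157 := by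
  have h2 : 2 ≤ q ^ f := by
    calc 2 ≤ q := hq.two_le
      _ = q ^ 1 := (pow_one q).symm
      _ ≤ q ^ f := Nat.pow_le_pow_right hq.pos hf
  obtain ⟨k, hk⟩ : ∃ k, q ^ f = 13 * k + 1 := ⟨q ^ f / 13, by omega⟩
  have hk1 : 1 ≤ k := by omega
  have hk23 : k ≤ 23 := by omega
  have key : ∀ r : ℕ, r.Prime → r ∣ q ^ f → r = q := fun r hr h =>
    (Nat.prime_dvd_prime_iff_eq hr hq).mp (hr.dvd_of_dvd_pow h)
  interval_cases k
  · have a := key 2 (by norm_num) (by rw [hk]; norm_num)
    have b := key 7 (by norm_num) (by rw [hk]; norm_num)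
    omega
  · have a := key 3 (by norm_num) (by rw [hk]; norm_num)
    omega
  · have a := key 2 (by norm_num) (by rw [hk]; norm_num)
    have b := key 5 (by norm_num) (by rw [hk]; norm_num)
    omega
  · have a := key 53 (by norm_num) (by rw [hk])
    omega
  · have a := key 2 (by norm_num) (by rw [hk]; norm_num)
    have b := key 3 (by norm_num) (by rw [hk]; norm_num)
    omega
  · have a := key 79 (by norm_num) (by rw [hk])
    omega
  · have a := key 2 (by norm_num) (by rw [hk]; norm_num)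
    have b := key 23 (by norm_num) (by rw [hk]; norm_num)
    omega
  · have a := key 3 (by norm_num) (by rw [hk]; norm_num)
    have b := key 5 (by norm_num) (by rw [hk]; norm_num)
    omega
  · have a := key 2 (by norm_num) (by rw [hk]; norm_num)
    have b := key 59 (by norm_num) (by rw [hk]; norm_num)
    omega
  · have a := key 131 (by norm_num) (by rw [hk])
    omega
  · have a := key 2 (by norm_num) (by rw [hk]; norm_num)
    have b := key 3 (by norm_num) (by rw [hk]; norm_num)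
    omega
  · have a := key 157 (by norm_num) (by rw [hk])
    omega
  · have a := key 2 (by norm_num) (by rw [hk]; norm_num)
    have b := key 5 (by norm_num) (by rw [hk]; norm_num)
    omega
  · have a := key 3 (by norm_num) (by rw [hk]; norm_num)
    have b := key 61 (by norm_num) (by rw [hk]; norm_num)
    omega
  · have a := key 2 (by norm_num) (by rw [hk]; norm_num)
    have b := key 7 (by norm_num) (by rw [hk]; norm_num)
    omega
  · have a := key 11 (by norm_num) (by rw [hk]; norm_num)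
    have b := key 19 (by norm_num) (by rw [hk]; norm_num)
    omega
  · have a := key 2 (by norm_num) (by rw [hk]; norm_num)
    have b := key 3 (by norm_num) (by rw [hk]; norm_num)
    omega
  · have a := key 5 (by norm_num) (by rw [hk]; norm_num)
    have b := key 47 (by norm_num) (by rw [hk]; norm_num)
    omega
  · have a := key 2 (by norm_num) (by rw [hk]; norm_num)
    have b := key 31 (by norm_num) (by rw [hk]; norm_num)
    omega
  · have a := key 3 (by norm_num) (by rw [hk]; norm_num)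
    have b := key 29 (by norm_num) (by rw [hk]; norm_num)
    omega
  · have a := key 2 (by norm_num) (by rw [hk]; norm_num)
    have b := key 137 (by norm_num) (by rw [hk]; norm_num)
    omega
  · have a := key 7 (by norm_num) (by rw [hk]; norm_num)
    have b := key 41 (by norm_num) (by rw [hk]; norm_num)
    omega
  · have a := key 2 (by norm_num) (by rw [hk]; norm_num)
    have b := key 3 (by norm_num) (by rw [hk]; norm_num)
    omega

section

variable (K : Type*) [Field K] [NumberField K] [hK : IsCyclotomicExtension {13} ℚ K]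

theorem fact_prime_thirteen : Fact (Nat.Prime 13) := ⟨by norm_num⟩

attribute [local instance] fact_prime_thirteen

omit [NumberField K] hK in
theorem phi13_eq_zero {ζ : K} (hζ : IsPrimitiveRoot ζ 13) :
    1 + ζ + ζ ^ 2 + ζ ^ 3 + ζ ^ 4 + ζ ^ 5 + ζ ^ 6 + ζ ^ 7 + ζ ^ 8 + ζ ^ 9 + ζ ^ 10 + ζ ^ 11 + ζ ^ 12 = 0 := by
  have h := hζ.geom_sum_eq_zero (by norm_num)
  simp only [Finset.sum_range_succ, Finset.sum_range_zero, zero_add, pow_zero, pow_one] at h
  exact h

/-- Expand a product over `Finset.Ico 1 13`. -/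
theorem prod_Ico_one_thirteen {M : Type*} [CommMonoid M] (F : ℕ → M) :
    ∏ i ∈ Finset.Ico 1 13, F i =
      F 1 * F 2 * F 3 * F 4 * F 5 * F 6 * F 7 * F 8 * F 9 * F 10 * F 11 * F 12 := by
  rw [Finset.prod_Ico_eq_prod_range]
  simp [Finset.prod_range_succ]

theorem norm_gen53 {ζ : K} (hζ : IsPrimitiveRoot ζ 13) :
    Algebra.norm ℤ (aeval hζ.toInteger gen53) = 53 := by
  apply norm_aeval_toInteger_eq_of_prod_eq K hζ gen53 53
  rw [prod_Ico_one_thirteen]
  have := prod_gen53 ζ (phi13_eq_zero K hζ)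
  simp only [gen53, map_add, map_one, aeval_X, map_pow, Int.cast_ofNat]
  exact this

theorem norm_gen3 {ζ : K} (hζ : IsPrimitiveRoot ζ 13) :
    Algebra.norm ℤ (aeval hζ.toInteger gen3) = 27 := by
  apply norm_aeval_toInteger_eq_of_prod_eq K hζ gen3 27
  rw [prod_Ico_one_thirteen]
  have := prod_gen3 ζ (phi13_eq_zero K hζ)
  simp only [gen3, map_add, map_sub, map_one, aeval_X, map_pow, Int.cast_ofNat]
  exact this

theorem norm_gen131 {ζ : K} (hζ : IsPrimitiveRoot ζ 13) :
    Algebra.norm ℤ (aeval hζ.toInteger gen131) = 131 := by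
  apply norm_aeval_toInteger_eq_of_prod_eq K hζ gen131 131
  rw [prod_Ico_one_thirteen]
  have := prod_gen131 ζ (phi13_eq_zero K hζ)
  simp only [gen131, map_sub, map_one, aeval_X, map_pow, Int.cast_ofNat]
  exact this

theorem norm_gen79 {ζ : K} (hζ : IsPrimitiveRoot ζ 13) :
    Algebra.norm ℤ (aeval hζ.toInteger gen79) = 79 := by
  apply norm_aeval_toInteger_eq_of_prod_eq K hζ gen79 79
  rw [prod_Ico_one_thirteen]
  have := prod_gen79 ζ (phi13_eq_zero K hζ)
  simp only [gen79, map_add, map_sub, map_one, aeval_X, map_pow, Int.cast_ofNat]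
  exact this

theorem norm_gen157 {ζ : K} (hζ : IsPrimitiveRoot ζ 13) :
    Algebra.norm ℤ (aeval hζ.toInteger gen157) = 157 := by
  apply norm_aeval_toInteger_eq_of_prod_eq K hζ gen157 157
  rw [prod_Ico_one_thirteen]
  have := prod_gen157 ζ (phi13_eq_zero K hζ)
  simp only [gen157, map_add, map_sub, map_one, aeval_X, map_pow, Int.cast_ofNat]
  exact this

/-- The Minkowski bound of `ℚ(ζ₁₃)` is less than `307`. -/
theorem minkowski_floor_le :
    ⌊(4 / Real.pi) ^ InfinitePlace.nrComplexPlaces K *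
      ((Module.finrank ℚ K).factorial / (Module.finrank ℚ K) ^ (Module.finrank ℚ K) *
        √|(discr K : ℝ)|)⌋₊ ≤ 306 := by
  rw [Rat.discr_prime 13 K, IsCyclotomicExtension.finrank (n := 13) K
    (cyclotomic.irreducible_rat (by norm_num)), Rat.nrComplexPlaces_eq_totient_div_two 13,
    Nat.totient_prime (by norm_num : Nat.Prime 13)]
  have hs : √|(((-1 : ℤ) ^ ((13 - 1) / 2) * (13 : ℕ) ^ (13 - 2) : ℤ) : ℝ)| < 1338716 := by
    rw [Real.sqrt_lt' (by norm_num)]
    norm_num
  have hpi : (4 / Real.pi) < 40000 / 31415 := by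
    rw [div_lt_div_iff₀ Real.pi_pos (by norm_num)]
    have := Real.pi_gt_d4
    linarith
  have hpi0 : (0 : ℝ) < 4 / Real.pi := by positivity
  have h6 : (4 / Real.pi) ^ ((13 - 1) / 2) < (40000 / 31415) ^ 6 := by
    have : (13 - 1) / 2 = 6 := by norm_num
    rw [this]
    exact pow_lt_pow_left₀ hpi hpi0.le (by norm_num)
  have hlt : (4 / Real.pi) ^ ((13 - 1) / 2) *
      (((13 - 1 : ℕ).factorial : ℝ) / ((13 - 1 : ℕ) : ℝ) ^ (13 - 1) *
        √|(((-1 : ℤ) ^ ((13 - 1) / 2) * (13 : ℕ) ^ (13 - 2) : ℤ) : ℝ)|) < 307 := by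
    have hfac : (((13 - 1 : ℕ).factorial : ℝ) / ((13 - 1 : ℕ) : ℝ) ^ (13 - 1)) =
        479001600 / 8916100448256 := by
      norm_num [Nat.factorial]
    rw [hfac]
    calc (4 / Real.pi) ^ ((13 - 1) / 2) * (479001600 / 8916100448256 *
          √|(((-1 : ℤ) ^ ((13 - 1) / 2) * (13 : ℕ) ^ (13 - 2) : ℤ) : ℝ)|)
        ≤ (40000 / 31415) ^ 6 * (479001600 / 8916100448256 * 1338716) := by
          gcongr
      _ < 307 := by norm_num
  exact Nat.le_of_lt_succ ((Nat.floor_lt (by positivity)).mpr (by exact_mod_cast hlt))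

/-- Principal prime above an exceptional prime `q`, from an element of norm `q ^ f`. -/
theorem exists_principal_of_norm {q n : ℕ} [Fact q.Prime] (hq13 : ¬ q ∣ 13) (α : 𝓞 K)
    (hα : Algebra.norm ℤ α = (n : ℤ)) (hn : n = q ^ orderOf (q : ZMod 13)) :
    ∃ P ∈ primesOver (span {(q : ℤ)}) (𝓞 K), Submodule.IsPrincipal P := by
  apply exists_isPrincipal_mem_primesOver_of_natAbs_norm_eq K hq13 α
  rw [hα, Int.natAbs_natCast, hn]

theorem orderOf_three : orderOf ((3 : ℕ) : ZMod 13) = 3 := by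
  rw [orderOf_eq_iff (by norm_num)]
  refine ⟨by decide, fun m hm hm0 => ?_⟩
  interval_cases m <;> decide

theorem orderOf_eq_one_of_mod {q : ℕ} (h : q % 13 = 1) : orderOf ((q : ℕ) : ZMod 13) = 1 := by
  rw [orderOf_eq_one_iff]
  have : ((q : ℕ) : ZMod 13) = ((1 : ℕ) : ZMod 13) := by
    rw [ZMod.natCast_eq_natCast_iff']
    simpa using h
  simpa using this

/-- If `ℚ(ζ₁₃)` is the 13-th cyclotomic field then its ring of integers is a PID. -/
theorem thirteen_pid : IsPrincipalIdealRing (𝓞 K) := by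
  have hgal : IsGalois ℚ K := isGalois {13} ℚ K
  have hζ := zeta_spec 13 ℚ K
  apply RingOfIntegers.isPrincipalIdealRing_of_isPrincipal_of_lt_or_isPrincipal_of_mem_primesOver_of_mem_Icc
  have hM := minkowski_floor_le K
  intro q hq hqprime
  rw [Finset.mem_Icc] at hq
  have hq306 : q ≤ 306 := hq.2.trans hM
  have : Fact q.Prime := ⟨hqprime⟩
  by_cases h13 : q = 13
  · subst h13
    have hK1 : IsCyclotomicExtension {13 ^ (0 + 1)} ℚ K := by simpa using hK
    have hζ1 : IsPrimitiveRoot (zeta 13 ℚ K) (13 ^ (0 + 1)) := by simp [hζ]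
    refine ⟨span {hζ1.toInteger - 1}, ⟨Rat.isPrime_span_zeta_sub_one 13 0 hζ1,
      Rat.liesOver_span_zeta_sub_one 13 0 hζ1⟩, Or.inr ⟨_, rfl⟩⟩
  have hq13 : ¬ q ∣ 13 := by
    intro hd
    exact h13 ((Nat.prime_dvd_prime_iff_eq hqprime (by norm_num)).mp hd)
  by_cases hex : q = 3 ∨ q = 53 ∨ q = 79 ∨ q = 131 ∨ q = 157
  · rcases hex with rfl | rfl | rfl | rfl | rfl
    · obtain ⟨P, hP, hP'⟩ := exists_principal_of_norm K hq13 _ (norm_gen3 K hζ)
        (by rw [orderOf_three]; norm_num)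
      exact ⟨P, hP, Or.inr hP'⟩
    · obtain ⟨P, hP, hP'⟩ := exists_principal_of_norm K hq13 _ (norm_gen53 K hζ)
        (by rw [orderOf_eq_one_of_mod (by norm_num), pow_one])
      exact ⟨P, hP, Or.inr hP'⟩
    · obtain ⟨P, hP, hP'⟩ := exists_principal_of_norm K hq13 _ (norm_gen79 K hζ)
        (by rw [orderOf_eq_one_of_mod (by norm_num), pow_one])
      exact ⟨P, hP, Or.inr hP'⟩
    · obtain ⟨P, hP, hP'⟩ := exists_principal_of_norm K hq13 _ (norm_gen131 K hζ)
        (by rw [orderOf_eq_one_of_mod (by norm_num), pow_one])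
      exact ⟨P, hP, Or.inr hP'⟩
    · obtain ⟨P, hP, hP'⟩ := exists_principal_of_norm K hq13 _ (norm_gen157 K hζ)
        (by rw [orderOf_eq_one_of_mod (by norm_num), pow_one])
      exact ⟨P, hP, Or.inr hP'⟩
  · obtain ⟨⟨P, hP, hP'⟩⟩ := (span {(q : ℤ)}).nonempty_primesOver (S := 𝓞 K)
    refine ⟨P, ⟨hP, hP'⟩, Or.inl ?_⟩
    have hdeg : P.inertiaDeg ℤ = orderOf ((q : ℕ) : ZMod 13) :=
      Rat.inertiaDeg_eq_of_not_dvd q K P hq13
    have hmax : (span {(q : ℤ)}).IsMaximal := Int.ideal_span_isMaximal_of_prime q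
    have hpos : 0 < P.inertiaDeg ℤ := inertiaDeg_pos P ℤ
    refine lt_of_le_of_lt hM ?_
    by_contra hcon
    rw [not_lt] at hcon
    apply hex
    apply exceptional_of_pow_le q (P.inertiaDeg ℤ) hqprime hpos hcon
    have h1 : ((q : ℕ) : ZMod 13) ^ (P.inertiaDeg ℤ) = 1 := by
      rw [hdeg]
      exact pow_orderOf_eq_one _
    have h2 : ((q ^ (P.inertiaDeg ℤ) : ℕ) : ZMod 13) = ((1 : ℕ) : ZMod 13) := by
      rw [Nat.cast_pow, h1, Nat.cast_one]
    rw [ZMod.natCast_eq_natCast_iff'] at h2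
    simpa using h2

end

end Fermat.Agent.Lib.FltRegular.PID13
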