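/-
The ring of integers of `ℚ(ζ₇)` is a principal ideal domain.
-/
import Mathlib

set_option autoImplicit false

namespace Fermat.Agent.Lib.FltRegular

open NumberField Polynomial InfinitePlace Nat Real cyclotomic Module Ideal

universe u

/-- The Minkowski bound of `ℚ(ζ₇)` is `< 5`. -/
theorem minkowski_seven_lt (K : Type u) [Field K] [NumberField K]
    [IsCyclotomicExtension {7} ℚ K] :
    (4 / π) ^ nrComplexPlaces K *
      ((finrank ℚ K)! / (finrank ℚ K) ^ (finrank ℚ K) * √|discr K|) < 5 := by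
  have h7 : Fact (Nat.Prime 7) := ⟨by norm_num⟩
  rw [IsCyclotomicExtension.Rat.discr_prime 7 K, IsCyclotomicExtension.finrank (n := 7) K
    (irreducible_rat (by simp)), IsCyclotomicExtension.Rat.nrComplexPlaces_eq_totient_div_two 7,
    totient_prime h7.out]
  have hfact : ((7 - 1)! : ℝ) = 720 := by
    norm_num [Nat.factorial]
  have hsqrt : √(16807 : ℝ) < 130 := by
    rw [Real.sqrt_lt' (by norm_num)]
    norm_num
  have hpi : (4 / π) ^ 3 < (4 / 3 : ℝ) ^ 3 := by
    gcongr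
    exact pi_gt_three
  have hpos : (0 : ℝ) < (4 / π) ^ 3 := by positivity
  rw [hfact]
  push_cast
  rw [abs_neg, abs_of_pos (by norm_num : (0 : ℝ) < 16807)]
  have hs0 : (0 : ℝ) ≤ √16807 := Real.sqrt_nonneg _
  calc (4 / π) ^ 3 * (720 / 6 ^ 6 * √16807)
      ≤ (4 / 3 : ℝ) ^ 3 * (720 / 6 ^ 6 * √16807) := by gcongr
    _ < (4 / 3 : ℝ) ^ 3 * (720 / 6 ^ 6 * 130) := by gcongr
    _ < 5 := by norm_num

theorem orderOf_two_zmod_seven : orderOf ((2 : ℕ) : ZMod 7) = 3 := by
  rw [orderOf_eq_iff (by norm_num)]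
  decide

theorem orderOf_three_zmod_seven : orderOf ((3 : ℕ) : ZMod 7) = 6 := by
  rw [orderOf_eq_iff (by norm_num)]
  decide

/-- If `IsCyclotomicExtension {7} ℚ K` then `𝓞 K` is a principal ideal domain. -/
theorem seven_pid (K : Type u) [Field K] [NumberField K] [IsCyclotomicExtension {7} ℚ K] :
    IsPrincipalIdealRing (𝓞 K) := by
  have h7 : Fact (Nat.Prime 7) := ⟨by norm_num⟩
  have hgal : IsGalois ℚ K := IsCyclotomicExtension.isGalois {7} ℚ K
  apply RingOfIntegers.isPrincipalIdealRing_of_isPrincipal_of_lt_or_isPrincipal_of_mem_primesOver_of_mem_Icc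
  have hM : ⌊(4 / π) ^ nrComplexPlaces K *
      ((finrank ℚ K)! / (finrank ℚ K) ^ (finrank ℚ K) * √|discr K|)⌋₊ < 5 :=
    (Nat.floor_lt (by positivity)).2 (minkowski_seven_lt K)
  intro p hp hpp
  have hp4 : p ≤ 4 := by
    have := (Finset.mem_Icc.1 hp).2
    omega
  have hfact : Fact (Nat.Prime p) := ⟨hpp⟩
  obtain ⟨⟨P, hP1, hP2⟩⟩ := (span {(p : ℤ)}).nonempty_primesOver (S := 𝓞 K)
  refine ⟨P, ⟨hP1, hP2⟩, Or.inl ?_⟩
  have hp7 : ¬ p ∣ 7 := by
    intro hd
    have := (Nat.prime_dvd_prime_iff_eq hpp (by norm_num)).1 hd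
    omega
  rw [IsCyclotomicExtension.Rat.inertiaDeg_eq_of_not_dvd p K P hp7]
  refine lt_of_lt_of_le hM ?_
  have h2 : 2 ≤ p := hpp.two_le
  interval_cases p
  · -- p = 2
    rw [orderOf_two_zmod_seven]; norm_num
  · -- p = 3
    rw [orderOf_three_zmod_seven]; norm_num
  · exact absurd hpp (by norm_num)

end Fermat.Agent.Lib.FltRegular
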